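import Mathlib
import Fermat.Agent.M59.C.LocRelNorm
import Fermat.Agent.M59.S38g.MachSeams
import Fermat.Agent.TW.Patch.InertiaBridge
import Fermat.Agent.TW.LG.AsX

/-!
# Project M59 (S59), box [C + S38g], cell [C-top] (helper21; prefix `m59ct_`): [HARMLESS]

`m59ct_harmless : m59m_Harmless_stmt` — at a harmless prime `ℓ` (`ℓ ≡ -1 mod p`,
`tr ρ̄(Frob_ℓ) ≠ 0`) a representation over a noetherian local ring with cyclotomic determinant,
residually unramified at `ℓ` and with unipotent inertia at `ℓ`, is UNRAMIFIED at `ℓ`.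

* `m59ct_InertiaGen td`, `m59ct_tameGen` : tame generators at an arbitrary finite set of primes
  `ℓ ≠ p` (`m59c_TameData`) WITH the generation of the image of the inertia group by `σ_ℓ`
  (twin of `twib_InertiaGen`, `twib_tameData`, which need `p ∣ ℓ - 1`).
* `m59ct_inertia_trivial` : `r(σ_ℓ) = 1` ⟹ `r τ = 1` for every `τ ∈ I_ℓ` (framed form, at the place
  `primeLocalPlace ℓ`);  `m59ct_unram_of_sigma` : the same at every place above `ℓ`.
* `m59ct_harmless_alg` : the linear algebra.  `Φ M = c M Φ`, `det Φ = c`, `c`, `1 - c`, `tr Φ`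
  units and `1 + c ∈ 𝔪` force `M = 0`:  from `Φ² = t Φ - c` one gets
  `t c (1 - c) M Φ = c (1 - c)(1 + c) M`, so `M (Φ - e) = 0` with `e = t⁻¹ (1 + c) ∈ 𝔪`, and
  `det (Φ - e) = e² - 1` is a unit.
-/

set_option autoImplicit false
set_option linter.unusedSectionVars false
set_option linter.style.haveILetI false

open Polynomial IsLocalRing ExtCitation
open Fermat.Agent.S53 Fermat.Agent.S56 Fermat.Agent.TW Fermat.Agent.JT3 Fermat.Agent.S55
open Fermat.Agent.SS Fermat.Agent.DS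
open scoped Pointwise

namespace Fermat.Agent.M59

noncomputable section

local notation "GQ" => (AlgebraicClosure ℚ ≃ₐ[ℚ] AlgebraicClosure ℚ)
local notation "Qbar" => AlgebraicClosure ℚ

/-! ### tame data with inertia generation -/

/-- `f(I_ℓ)` consists of powers of `f(σ_ℓ)`, for every finite-level `f` which is a `p`-group on
inertia (twin of `twib_InertiaGen`). -/
def m59ct_InertiaGen {p : ℕ} {Th : Finset Nat.Primes} (td : m59c_TameData p Th) : Prop :=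
  ∀ ℓ ∈ Th, ∀ (M : Type) [Monoid M] (f : GQ →* M),
    (∃ L : IntermediateField ℚ Qbar, FiniteDimensional ℚ L ∧
      ∀ s : GQ, (∀ x ∈ L, s x = x) → f s = 1) →
    (∀ τ ∈ (primeLocalPlace ℓ).inertiaSubgroupIn ℚ, ∃ n : ℕ, f τ ^ p ^ n = 1) →
    ∀ τ ∈ (primeLocalPlace ℓ).inertiaSubgroupIn ℚ, ∃ m : ℕ, f τ = f (td.gσ ℓ) ^ m

/-- **tame generators with inertia generation** at every finite set of primes `ℓ ≠ p`. -/
theorem m59ct_tameGen (p : ℕ) [hp : Fact p.Prime] (Th : Finset Nat.Primes)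
    (hTh : ∀ ℓ ∈ Th, (ℓ : ℕ) ≠ p) : ∃ td : m59c_TameData p Th, m59ct_InertiaGen td := by
  classical
  have hex : ∀ ℓ : Nat.Primes, ∃ (φ σ : GQ), ℓ ∈ Th →
      ∃ α : Qbar, (primeLocalPlace ℓ).IsFrobeniusAt φ (ℓ : ℕ) ∧
        σ ∈ (primeLocalPlace ℓ).inertiaSubgroupIn ℚ ∧ α ^ p = ((ℓ : ℕ) : Qbar) ∧ σ α ≠ α := by
    intro ℓ
    by_cases hℓ : ℓ ∈ Th
    · haveI : Fact (ℓ : ℕ).Prime := ⟨ℓ.2⟩
      obtain ⟨φ, σ, α, h⟩ := m59c_tg_exists (ℓ : ℕ) (primeLocalPlace ℓ) (s56ld_liesOver ℓ) hp.out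
        (hTh ℓ hℓ).symm
      exact ⟨φ, σ, fun _ => ⟨α, h⟩⟩
    · exact ⟨1, 1, fun h => absurd h hℓ⟩
  choose gφ gσ hsp using hex
  refine ⟨{
    gφ := gφ
    gσ := gσ
    φ_mem := fun ℓ hℓ => ?_
    φ_frob := fun ℓ hℓ => ?_
    σ_mem := fun ℓ hℓ => ?_
    rel := fun ℓ hℓ M _ f hfin hpg => ?_
    gen := fun ℓ hℓ M _ f hfin hpg τ hτ => ?_ }, ?_⟩
  · obtain ⟨α, h1, -⟩ := hsp ℓ hℓ
    exact h1.mem_decompositionSubgroup
  · obtain ⟨α, h1, -⟩ := hsp ℓ hℓ
    exact h1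
  · obtain ⟨α, -, h2, -⟩ := hsp ℓ hℓ
    exact h2
  · haveI : Fact (ℓ : ℕ).Prime := ⟨ℓ.2⟩
    obtain ⟨α, h1, h2, -⟩ := hsp ℓ hℓ
    obtain ⟨L, hL, hLf⟩ := twc_tg_finiteLevel_conv f hfin
    haveI := hL
    exact twc_tg_conj_of (ℓ : ℕ) (primeLocalPlace ℓ) (s56ld_liesOver ℓ) hp.out (hTh ℓ hℓ).symm
      h1 h2 f L hLf hpg
  · haveI : Fact (ℓ : ℕ).Prime := ⟨ℓ.2⟩
    obtain ⟨α, h1, h2, h3, h4⟩ := hsp ℓ hℓ
    obtain ⟨L, hL, hLf⟩ := twc_tg_finiteLevel_conv f hfin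
    haveI := hL
    obtain ⟨n, m, h⟩ := m59c_tg_decomp_gen_of (ℓ : ℕ) (primeLocalPlace ℓ) (s56ld_liesOver ℓ) hp.out
      (hTh ℓ hℓ).symm h3 h1 h2 h4 f L hLf hpg hτ
    rw [h, map_mul, map_pow]
    refine mul_mem (twc_tg_zpow_mem f _ _ ?_ ?_ n) (pow_mem ?_ m)
    · exact Submonoid.subset_closure (by simp)
    · exact Submonoid.subset_closure (by simp)
    · exact Submonoid.subset_closure (by simp)
  · intro ℓ hℓ M _ f hfin hpg τ hτ
    haveI : Fact (ℓ : ℕ).Prime := ⟨ℓ.2⟩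
    obtain ⟨α, -, h2, h3, h4⟩ := hsp ℓ hℓ
    obtain ⟨L, hL, hLf⟩ := twc_tg_finiteLevel_conv f hfin
    haveI := hL
    exact m59c_tg_inertia_gen_of (ℓ : ℕ) (primeLocalPlace ℓ) (s56ld_liesOver ℓ) hp.out
      (hTh ℓ hℓ).symm h3 h2 h4 f L hLf hpg hτ

/-! ### from `σ_ℓ` to the inertia groups -/

section bridge

variable {A : Type} [CommRing A] [IsLocalRing A] [IsNoetherianRing A]

/-- `r(σ_ℓ) = 1` ⟹ `r τ = 1` for every `τ` in the inertia group of `primeLocalPlace ℓ`. -/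
theorem m59ct_inertia_trivial {p : ℕ} {Th : Finset Nat.Primes} (td : m59c_TameData p Th)
    (hgen : m59ct_InertiaGen td) (hp : (p : A) ∈ maximalIdeal A) (r : FramedRep A)
    (ℓ : Nat.Primes) (hℓ : ℓ ∈ Th)
    (hres : ∀ τ ∈ (primeLocalPlace ℓ).inertiaSubgroupIn ℚ,
      twc_lr_In (maximalIdeal A) (r τ - 1))
    (hσ : r (td.gσ ℓ) = 1) :
    ∀ τ ∈ (primeLocalPlace ℓ).inertiaSubgroupIn ℚ, r τ = 1 := by
  intro τ hτ
  rw [← sub_eq_zero]
  refine twc_lr_matrix_eq_zero fun n => ?_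
  rw [← twc_lr_mk_eq_zero_iff]
  have hfin : ∃ L : IntermediateField ℚ Qbar, FiniteDimensional ℚ L ∧
      ∀ s : GQ, (∀ x ∈ L, s x = x) → twc_lr_red r n s = 1 := by
    obtain ⟨L, hL, h⟩ := r.cont n
    refine ⟨L, hL, fun s hs => ?_⟩
    rw [twc_lr_red_apply, ← sub_eq_zero, ← map_one (twc_lr_mk A n), ← map_sub,
      twc_lr_mk_eq_zero_iff]
    exact h s hs
  have hpg : ∀ τ ∈ (primeLocalPlace ℓ).inertiaSubgroupIn ℚ,
      ∃ m : ℕ, twc_lr_red r n τ ^ p ^ m = 1 := by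
    intro τ hτ
    refine ⟨n, ?_⟩
    rw [twc_lr_red_apply, ← map_pow, ← sub_eq_zero, ← map_one (twc_lr_mk A n), ← map_sub,
      twc_lr_mk_eq_zero_iff]
    exact (twc_lr_pow_p hp (hres τ hτ) n).mono (Ideal.pow_le_pow_right (Nat.le_succ n))
  obtain ⟨m, hm⟩ := hgen ℓ hℓ _ (twc_lr_red r n) hfin hpg τ hτ
  rw [twc_lr_red_apply, twc_lr_red_apply, hσ, map_one, one_pow] at hm
  rw [map_sub, hm, map_one, sub_self]

/-- `r(σ_ℓ) = 1` ⟹ `r` is unramified at `ℓ` (every place above `ℓ`). -/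
theorem m59ct_unram_of_sigma {p : ℕ} {Th : Finset Nat.Primes} (td : m59c_TameData p Th)
    (hgen : m59ct_InertiaGen td) (hp : (p : A) ∈ maximalIdeal A) (r : FramedRep A)
    (ℓ : Nat.Primes) (hℓ : ℓ ∈ Th)
    (hres : ∀ τ ∈ (primeLocalPlace ℓ).inertiaSubgroupIn ℚ,
      twc_lr_In (maximalIdeal A) (r τ - 1))
    (hσ : r (td.gσ ℓ) = 1) :
    r.toGaloisRepAdic.IsUnramifiedAt (ℓ : ℕ) := by
  intro P hP σ hσP
  obtain ⟨τ, rfl⟩ := pl_exists_smul_eq ℓ.2 (s56ld_liesOver ℓ) hP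
  have h1 := twib_mem_inertia_smul _ τ σ hσP
  have h2 := m59ct_inertia_trivial td hgen hp r ℓ hℓ hres hσ _ h1
  have h3 : r σ = r τ * r (τ⁻¹ * σ * τ) * r τ⁻¹ := by
    rw [← r.map_mul, ← r.map_mul]
    congr 1
    group
  have h4 : r σ = 1 := by
    rw [h3, h2, mul_one, ← r.map_mul, mul_inv_cancel, r.map_one]
  refine LinearMap.ext fun v => ?_
  rw [FramedRep.toGaloisRepAdic_ρ_apply, h4, Matrix.one_mulVec]
  rfl

end bridge

/-! ### the linear algebra -/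

/-- `Φ M = c M Φ`, `det Φ = c`, `c`, `1 - c`, `tr Φ` units, `1 + c ∈ 𝔪` ⟹ `M = 0`. -/
theorem m59ct_harmless_alg {B : Type*} [CommRing B] [IsLocalRing B]
    (M Φ : Matrix (Fin 2) (Fin 2) B) (c : B) (hrel : Φ * M = c • (M * Φ)) (hdet : Φ.det = c)
    (hc : IsUnit c) (h1c : IsUnit (1 - c)) (hc1 : 1 + c ∈ maximalIdeal B)
    (ht : IsUnit Φ.trace) : M = 0 := by
  set t := Φ.trace with htdef
  -- Cayley–Hamilton
  have hCH : Φ * Φ = t • Φ - c • (1 : Matrix (Fin 2) (Fin 2) B) := by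
    have h := Matrix.aeval_self_charpoly Φ
    rw [Matrix.charpoly_fin_two, hdet] at h
    simp only [map_add, map_sub, map_mul, map_pow, aeval_X, aeval_C, pow_two,
      Algebra.algebraMap_eq_smul_one] at h
    rw [← htdef, Matrix.smul_mul, Matrix.one_mul] at h
    rw [eq_sub_iff_add_eq, ← sub_eq_zero, ← h]
    abel
  -- `Φ² M = c² M Φ²`
  have h2 : (Φ * Φ) * M = (c * c) • (M * (Φ * Φ)) := by
    calc (Φ * Φ) * M = Φ * (Φ * M) := Matrix.mul_assoc _ _ _
      _ = Φ * (c • (M * Φ)) := by rw [hrel]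
      _ = c • ((Φ * M) * Φ) := by rw [Matrix.mul_smul, Matrix.mul_assoc]
      _ = c • ((c • (M * Φ)) * Φ) := by rw [hrel]
      _ = (c * c) • (M * (Φ * Φ)) := by
        rw [Matrix.smul_mul, smul_smul, Matrix.mul_assoc]
  rw [hCH, Matrix.sub_mul, Matrix.smul_mul, Matrix.smul_mul, Matrix.one_mul, hrel,
    Matrix.mul_sub, Matrix.mul_smul, Matrix.mul_smul, Matrix.mul_one] at h2
  -- `t c (1 - c) M Φ = c (1 - c)(1 + c) M`
  have h3 : (t * c * (1 - c)) • (M * Φ) = (c * (1 - c) * (1 + c)) • M := by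
    have e1 : (t * c * (1 - c)) • (M * Φ) =
        t • c • (M * Φ) - (c * c) • t • (M * Φ) := by
      rw [smul_smul, smul_smul, ← sub_smul]
      congr 1
      ring
    have e2 : (c * (1 - c) * (1 + c)) • M = c • M - (c * c) • c • M := by
      rw [smul_smul, ← sub_smul]
      congr 1
      ring
    rw [e1, e2]
    have h4 := h2
    rw [smul_sub] at h4
    rw [sub_eq_sub_iff_add_eq_add] at h4 ⊢
    rw [h4, add_comm]
  -- `M Φ = e M`
  obtain ⟨ti, hti⟩ := ht.exists_left_inv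
  obtain ⟨ci, hci⟩ := hc.exists_left_inv
  obtain ⟨di, hdi⟩ := h1c.exists_left_inv
  set e : B := ti * (1 + c) with hedef
  have h5 : M * Φ = e • M := by
    have h6 := congrArg (fun X => (ti * ci * di) • X) h3
    simp only [smul_smul] at h6
    have e3 : ti * ci * di * (t * c * (1 - c)) = 1 := by
      calc ti * ci * di * (t * c * (1 - c)) = (ti * t) * (ci * c) * (di * (1 - c)) := by ring
        _ = 1 := by rw [hti, hci, hdi]; ring
    have e4 : ti * ci * di * (c * (1 - c) * (1 + c)) = e := by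
      calc ti * ci * di * (c * (1 - c) * (1 + c)) =
          (ci * c) * (di * (1 - c)) * (ti * (1 + c)) := by ring
        _ = e := by rw [hci, hdi]; ring
    rw [e3, e4, one_smul] at h6
    exact h6
  -- `Φ - e` is invertible
  have hem : e ∈ maximalIdeal B := Ideal.mul_mem_left _ _ hc1
  have h7 : M * (Φ - e • (1 : Matrix (Fin 2) (Fin 2) B)) = 0 := by
    rw [Matrix.mul_sub, Matrix.mul_smul, Matrix.mul_one, h5, sub_self]
  have hdetU : IsUnit (Φ - e • (1 : Matrix (Fin 2) (Fin 2) B)).det := by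
    have h8 : (Φ - e • (1 : Matrix (Fin 2) (Fin 2) B)).det = c - e * t + e * e := by
      rw [Matrix.det_fin_two, ← hdet, Matrix.det_fin_two, htdef, Matrix.trace_fin_two]
      simp only [Matrix.sub_apply, Matrix.smul_apply, Matrix.one_apply_eq, smul_eq_mul, mul_one,
        Matrix.one_apply_ne (show (0 : Fin 2) ≠ 1 by decide),
        Matrix.one_apply_ne (show (1 : Fin 2) ≠ 0 by decide), mul_zero, sub_zero]
      ring
    rw [h8]
    have h9 : c - e * t + e * e = -1 + ((1 + c) - e * t + e * e) := by ring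
    rw [h9]
    by_contra hnu
    have h10 : -1 + ((1 + c) - e * t + e * e) ∈ maximalIdeal B := (mem_maximalIdeal _).2 hnu
    have h11 : (1 + c) - e * t + e * e ∈ maximalIdeal B :=
      Ideal.add_mem _ (Ideal.sub_mem _ hc1 (Ideal.mul_mem_right _ _ hem))
        (Ideal.mul_mem_right _ _ hem)
    have h12 : (-1 : B) ∈ maximalIdeal B := by
      have := Ideal.sub_mem _ h10 h11
      rwa [add_sub_cancel_right] at this
    have h13 : (1 : B) ∈ maximalIdeal B := by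
      have := (Ideal.neg_mem_iff (maximalIdeal B)).2 h12
      rwa [neg_neg] at this
    exact (Ideal.ne_top_iff_one _).1 (maximalIdeal.isMaximal B).ne_top h13
  calc M = M * ((Φ - e • (1 : Matrix (Fin 2) (Fin 2) B)) *
        (Φ - e • (1 : Matrix (Fin 2) (Fin 2) B))⁻¹) := by
        rw [Matrix.mul_nonsing_inv _ hdetU, Matrix.mul_one]
    _ = 0 := by rw [← Matrix.mul_assoc, h7, Matrix.zero_mul]

/-! ### the theorem -/

/-- a unit minus an element of the maximal ideal is a unit. -/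
theorem m59ct_isUnit_sub {B : Type*} [CommRing B] [IsLocalRing B] {x y : B} (hx : IsUnit x)
    (hy : y ∈ maximalIdeal B) : IsUnit (x - y) := by
  by_contra hnu
  have h1 : x - y ∈ maximalIdeal B := (mem_maximalIdeal _).2 hnu
  have h2 : x ∈ maximalIdeal B := by
    have := Ideal.add_mem _ h1 hy
    rwa [sub_add_cancel] at this
  exact ((mem_maximalIdeal _).1 h2) hx

/-- **[HARMLESS]**: unipotent inertia at a harmless prime is trivial. -/
theorem m59ct_harmless : m59m_Harmless_stmt := by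
  classical
  intro p _ hp2 T _ _ _ _ hpT ρ ℓ hℓ hℓp hdet hres hharm hun
  have hpp : p.Prime := Fact.out
  obtain ⟨r, ⟨e⟩⟩ := exists_framedRep ρ
  set ℓ' : Nat.Primes := ⟨ℓ, hℓ⟩ with hℓ'
  obtain ⟨td, hgen⟩ := m59ct_tameGen p {ℓ'} (fun x hx => by
    rw [Finset.mem_singleton.1 hx]; exact hℓp)
  have hmem : ℓ' ∈ ({ℓ'} : Finset Nat.Primes) := Finset.mem_singleton_self _
  -- transfer to the framing
  have hdet' : r.toGaloisRepAdic.DetIsCyclotomic p := s56t_tr_detIsCyclotomic e hdet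
  have hun' : r.toGaloisRepAdic.IsUnipotentOnInertiaAt ((ℓ' : Nat.Primes) : ℕ) :=
    s56t_tr_isUnipotentOnInertiaAt e hun
  have hres' : ∀ τ ∈ (primeLocalPlace ℓ').inertiaSubgroupIn ℚ,
      twc_lr_In (maximalIdeal T) (r τ - 1) := fun τ hτ =>
    twlg_ax_framed_small ρ r e τ (twib_hres_of_residual ρ hres _ (s56ld_liesOver ℓ') hτ)
  -- the relations
  obtain ⟨-, -, hrel⟩ := m59c_lr_unip td hpT r ℓ' hmem hres' hun'
  have hdφ : (r (td.gφ ℓ')).det = ((ℓ : ℕ) : T) := m59c_lr_det_phi td r ℓ' hmem hℓp hdet'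
  -- the units
  have hpℓ : ¬ p ∣ ℓ := fun h => hℓp ((Nat.prime_dvd_prime_iff_eq hpp hℓ).1 h).symm
  have hc : IsUnit ((ℓ : ℕ) : T) := twlg_as_natCast_isUnit hpp hpT ℓ hpℓ
  have hmod := hharm.1
  have hp1 : 1 ≤ p := hpp.one_lt.le
  have hℓ1 : p ∣ ℓ + 1 := by
    have h1 : (ℓ + 1) % p = 0 := by
      rw [Nat.add_mod, hmod, Nat.mod_eq_of_lt hpp.one_lt, Nat.sub_add_cancel hp1, Nat.mod_self]
    exact Nat.dvd_of_mod_eq_zero h1
  have hc1 : 1 + ((ℓ : ℕ) : T) ∈ maximalIdeal T := by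
    obtain ⟨k, hk⟩ := hℓ1
    have h1 : 1 + ((ℓ : ℕ) : T) = (p : T) * (k : T) := by
      rw [← Nat.cast_mul, ← hk]; push_cast; ring
    rw [h1]
    exact Ideal.mul_mem_right _ _ hpT
  have h2u : IsUnit ((2 : ℕ) : T) := twlg_as_natCast_isUnit hpp hpT 2 (fun h =>
    hp2 ((Nat.prime_dvd_prime_iff_eq hpp Nat.prime_two).1 h))
  have h1c : IsUnit (1 - ((ℓ : ℕ) : T)) := by
    have h1 : 1 - ((ℓ : ℕ) : T) = ((2 : ℕ) : T) - (1 + ((ℓ : ℕ) : T)) := by push_cast; ring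
    rw [h1]
    exact m59ct_isUnit_sub h2u hc1
  have ht : IsUnit (r (td.gφ ℓ')).trace := by
    have h1 := hharm.2 (primeLocalPlace ℓ') (s56ld_liesOver ℓ') (td.gφ ℓ') (td.φ_frob ℓ' hmem)
    have h2 : LinearMap.charpoly (ρ.residual.ρ (td.gφ ℓ')) =
        ((r (td.gφ ℓ')).charpoly).map (algebraMap T (ResidueField T)) := by
      have h3 : LinearMap.charpoly (ρ.residual.ρ (td.gφ ℓ')) =
          (LinearMap.charpoly (ρ.ρ (td.gφ ℓ'))).map (algebraMap T (ResidueField T)) :=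
        LinearMap.charpoly_baseChange _ _
      rw [h3, ← s56t_tr_charpoly e (td.gφ ℓ')]
      congr 1
      exact Matrix.charpoly_toLin' (r (td.gφ ℓ'))
    rw [h2, Matrix.charpoly_fin_two] at h1
    by_contra hnu
    have h4 : (r (td.gφ ℓ')).trace ∈ maximalIdeal T := (mem_maximalIdeal _).2 hnu
    have h5 : algebraMap T (ResidueField T) (r (td.gφ ℓ')).trace = 0 :=
      (residue_eq_zero_iff _).2 h4
    apply h1
    rw [Polynomial.coeff_map, Polynomial.coeff_add, Polynomial.coeff_sub, Polynomial.coeff_X_pow,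
      Polynomial.coeff_C_mul, Polynomial.coeff_X_one, Polynomial.coeff_C, if_neg (by norm_num),
      if_neg (by norm_num), mul_one, zero_sub, add_zero, map_neg, h5, neg_zero]
  have hM := m59ct_harmless_alg (r (td.gσ ℓ') - 1) (r (td.gφ ℓ')) ((ℓ : ℕ) : T) hrel hdφ hc h1c
    hc1 ht
  have hσ : r (td.gσ ℓ') = 1 := sub_eq_zero.1 hM
  have h := m59ct_unram_of_sigma td hgen hpT r ℓ' hmem hres' hσ
  exact s56t_tr_isUnramifiedAt e.symm h

end

end Fermat.Agent.M59
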