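import Mathlib
import Fermat.Agent.M59.S38g.CTop.Harmless
import Fermat.Agent.TW.Def.FramesType
import Fermat.Agent.TW.Top.ResidEquiv
import Fermat.Agent.TW.LG.AsLevel

/-!
# Project M59 (S59), box [C + S38g], cell [C-top] (helper21; prefix `m59ct_`): the types along the
tower WITH HARMLESS PRIMES

Twins of `twt_dl_isType` (`TW/Top/DatumLocal.lean`) and of `twc_ft_isType_big`,
`twc_ft_isType_level` (`TW/Def/FramesType.lean`): the covering hypothesis
"every prime of the level lies in `Smin ∪ Th ∪ Q`" is weakened to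
"… or divides the level exactly once and is HARMLESS for `ρ̄`" (`ρ̄` unramified there, `ℓ ≡ -1 (p)`,
`tr ρ̄(Frob_ℓ) ≠ 0`); at such a prime the representation of the Hecke–Galois datum has unipotent
inertia (S34), hence is unramified by `m59ct_harmless`.

* `m59ct_harmless_of_equiv`, `m59ct_harmless_baseChange`, `m59ct_harmless_datum` : harmlessness
  passes to the residual representation of a Hecke–Galois datum compatible with `ρ̄`;
* `m59ct_dl_isType`, `m59ct_ft_isType_big`, `m59ct_ft_isType_level`.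
-/

set_option autoImplicit false
set_option linter.unusedSectionVars false
set_option linter.style.haveILetI false

open Polynomial IsLocalRing CuspForm ExtCitation
open Fermat.Agent.S53 Fermat.Agent.S56 Fermat.Agent.JT3 Fermat.Agent.TW

namespace Fermat.Agent.M59

noncomputable section

local notation "GQ" => (AlgebraicClosure ℚ ≃ₐ[ℚ] AlgebraicClosure ℚ)
local notation "Qbar" => AlgebraicClosure ℚ

/-! ### transport of harmlessness -/

section transport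

variable {k : Type} [Field k]

/-- harmlessness only depends on the equivalence class. -/
theorem m59ct_harmless_of_equiv {p ℓ : ℕ} {ρ₁ ρ₂ : ResidualGaloisRep k} (h : ρ₁.IsEquiv ρ₂)
    (h2 : m59m_IsHarmless p ρ₂ ℓ) : m59m_IsHarmless p ρ₁ ℓ := by
  obtain ⟨e⟩ := h
  refine ⟨h2.1, fun A hA σ hσ => ?_⟩
  have h3 : ρ₂.ρ σ = e.toLinearEquiv.conj (ρ₁.ρ σ) := by
    refine LinearMap.ext fun x => ?_
    rw [LinearEquiv.conj_apply_apply, e.map_apply, LinearEquiv.apply_symm_apply]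
  have h4 : LinearMap.charpoly (ρ₂.ρ σ) = LinearMap.charpoly (ρ₁.ρ σ) := by
    rw [h3]
    exact LinearEquiv.charpoly_conj e.toLinearEquiv (ρ₁.ρ σ)
  rw [← h4]
  exact h2.2 A hA σ hσ

/-- harmlessness passes to a base change. -/
theorem m59ct_harmless_baseChange {k' : Type} [Field k'] [Algebra k k'] {p ℓ : ℕ}
    {ρbar : ResidualGaloisRep k} (h : m59m_IsHarmless p ρbar ℓ) :
    m59m_IsHarmless p (ρbar.baseChange k') ℓ := by
  refine ⟨h.1, fun A hA σ hσ => ?_⟩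
  rw [twt_ci_charpoly, Polynomial.coeff_map]
  exact fun h0 => h.2 A hA σ hσ ((map_eq_zero _).1 h0)

end transport

section datum

variable {𝒪 : Type} [CommRing 𝒪] [IsDomain 𝒪] [IsDiscreteValuationRing 𝒪]
  [IsAdicComplete (maximalIdeal 𝒪) 𝒪]
  {Nb : ℕ} [NeZero Nb] {S' : Finset ℕ}
  {θ : heckeAlgebra Nb 2 (↑S' : Set ℕ) →+* ResidueField 𝒪}
  {T : Type} [CommRing T] [IsLocalRing T] [IsNoetherianRing T]
  [IsAdicComplete (maximalIdeal T) T] [Algebra 𝒪 T] [IsLocalHom (algebraMap 𝒪 T)]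
  [Module.Finite 𝒪 T] [Module.Free 𝒪 T]

/-- harmlessness for the residual representation of a Hecke–Galois datum. -/
theorem m59ct_harmless_datum (H : HeckeGaloisRepDatum Nb (↑S' : Set ℕ) 𝒪 θ T)
    (ρbar : ResidualGaloisRep (ResidueField 𝒪)) (hcompat : twt_Compat θ ρbar) {p q : ℕ}
    (hq : m59m_IsHarmless p ρbar q) : m59m_IsHarmless p H.ρ.residual q := by
  refine m59ct_harmless_of_equiv (twt_re_datum H ρbar hcompat) ?_
  letI : Algebra (ResidueField 𝒪) (ResidueField T) :=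
    (ResidueField.map (algebraMap 𝒪 T)).toAlgebra
  exact m59ct_harmless_baseChange (k' := ResidueField T) hq

/-- **the type of block [C] for a Hecke–Galois datum, with harmless primes**: every prime of the
level lies in `Smin ∪ Th ∪ Q` or divides the level exactly once and is harmless for `ρ̄`; the
primes of `Smin ∖ {p}` divide the level exactly once. -/
theorem m59ct_dl_isType [Finite (ResidueField 𝒪)] [CharZero 𝒪] {p : ℕ} [Fact p.Prime]
    (hp2 : p ≠ 2) (hp𝒪 : (p : 𝒪) ∈ maximalIdeal 𝒪) (hpN : ¬ p ∣ Nb)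
    (hpS : p ∈ S') (hNS : ∀ q : ℕ, q.Prime → q ∣ Nb → q ∈ S')
    (H : HeckeGaloisRepDatum Nb (↑S' : Set ℕ) 𝒪 θ T)
    (ρbar : ResidualGaloisRep (ResidueField 𝒪)) (hcompat : twt_Compat θ ρbar)
    (Smin : Finset ℕ) (Th : Finset Nat.Primes) (Q : Finset ℕ) (hpSmin : p ∈ Smin)
    (hcover : ∀ q : ℕ, q.Prime → q ∣ Nb →
      q ∈ Smin ∪ Th.image (fun ℓ : Nat.Primes => (ℓ : ℕ)) ∪ Q ∨
        (¬ q ^ 2 ∣ Nb ∧ ρbar.IsUnramifiedAt q ∧ m59m_IsHarmless p ρbar q))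
    (hSmin : ∀ q ∈ Smin, q.Prime → q ≠ p → q ∣ Nb ∧ ¬ q ^ 2 ∣ Nb) :
    twc_IsType p Smin Th Q H.ρ := by
  have hp : p.Prime := Fact.out
  refine ⟨twt_dl_det hp hp𝒪 hNS H, twt_dl_flat hp hp2 hp𝒪 hpN hpS hNS H, ?_, ?_⟩
  · intro q hq hqU
    have hqp : q ≠ p := by
      rintro rfl
      exact hqU (Finset.mem_union_left _ (Finset.mem_union_left _ hpSmin))
    by_cases hqN : q ∣ Nb
    · rcases hcover q hq hqN with h | ⟨hq2, hunr, hharm⟩
      · exact absurd h hqU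
      · exact m59ct_harmless p hp2 T (twt_dl_p_mem hp𝒪) H.ρ q hq hqp (twt_dl_det hp hp𝒪 hNS H)
          (twt_re_datum_unram H ρbar hcompat q hunr) (m59ct_harmless_datum H ρbar hcompat hharm)
          (twt_dl_unip hp hp𝒪 hpS hNS H q hq hqp hqN hq2)
    · exact twt_dl_unram hp hp𝒪 hpS hNS H q hq hqN hqp
  · intro q hqSmin hq hqp
    obtain ⟨h1, h2⟩ := hSmin q hqSmin hq hqp
    exact twt_dl_unip hp hp𝒪 hpS hNS H q hq hqp h1 h2

end datum

/-! ### the types along the tower -/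

section types

variable {𝒪 : Type} [CommRing 𝒪] [IsDomain 𝒪] [IsDiscreteValuationRing 𝒪]
  [IsAdicComplete (maximalIdeal 𝒪) 𝒪] [Finite (ResidueField 𝒪)] [CharZero 𝒪]
  {N : ℕ} [NeZero N] {S : Finset ℕ} {θ : heckeAlgebra N 2 (↑S : Set ℕ) →+* ResidueField 𝒪}
  {B : twe_Base 𝒪 N S θ} {p : ℕ} {Q : Finset ℕ} [NeZero (twe_Nbal N Q ∅)]
  {L : twe_Level B p Q} {ThP : Finset Nat.Primes}
  [NeZero (twe_Nbal N Q (ThP.image fun ℓ : Nat.Primes => (ℓ : ℕ)))]

/-- **the type of a framing of the big system, with harmless primes.** -/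
theorem m59ct_ft_isType_big [Fact p.Prime] (hp2 : p ≠ 2) (hp𝒪 : (p : 𝒪) ∈ maximalIdeal 𝒪)
    (hpN : ¬ p ∣ N) (hpS : p ∈ S) (hNS : ∀ ℓ : ℕ, ℓ.Prime → ℓ ∣ N → ℓ ∈ S) (hsq : Squarefree N)
    (hQ : ∀ t ∈ Q, t.Prime ∧ t ∉ S) (hThN : ∀ ℓ ∈ ThP, (ℓ : ℕ) ∣ N)
    (ρbar : ResidualGaloisRep (ResidueField 𝒪)) (hcompat : twt_Compat θ ρbar)
    (Smin : Finset ℕ) (hpSmin : p ∈ Smin)
    (hcoverN : ∀ q : ℕ, q.Prime → q ∣ N →
      q ∈ Smin ∪ ThP.image (fun ℓ : Nat.Primes => (ℓ : ℕ)) ∨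
        (ρbar.IsUnramifiedAt q ∧ m59m_IsHarmless p ρbar q))
    (hSminN : ∀ q ∈ Smin, q.Prime → q ≠ p →
      q ∣ N ∧ q ∉ ThP.image (fun ℓ : Nat.Primes => (ℓ : ℕ)))
    (Bg : twe_Big L (ThP.image fun ℓ : Nat.Primes => (ℓ : ℕ)))
    (r'' : FramedRep Bg.T'') (h : Bg.H''.ρ.IsEquiv r''.toGaloisRepAdic) :
    twc_IsType p Smin ThP Q r''.toGaloisRepAdic := by
  classical
  have hp : p.Prime := Fact.out
  have hQp : ∀ t ∈ Q, t.Prime := fun t ht => (hQ t ht).1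
  have hTh := twc_ft_hTh (N := N) hThN
  have hThp : ∀ ℓ ∈ ThP.image (fun ℓ : Nat.Primes => (ℓ : ℕ)), ℓ.Prime := fun ℓ hℓ => (hTh ℓ hℓ).1
  have hNS'' := twc_ft_hNS hNS hQp hTh
  have hpN'' : ¬ p ∣ twe_Nbal N Q (ThP.image fun ℓ : Nat.Primes => (ℓ : ℕ)) := by
    intro h'
    rcases (twc_ft_prime_dvd_Nbal hQp hThp hp).1 h' with h'' | h'' | h''
    · exact hpN h''
    · exact (hQ p h'').2 hpS
    · exact hpN (hTh p h'').2
  refine twc_hp_isType_of_equiv h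
    (m59ct_dl_isType hp2 hp𝒪 hpN'' (Finset.mem_union_left _ hpS) hNS'' Bg.H'' ρbar
      (twlg_as_compat_big Bg ρbar hcompat) Smin ThP Q hpSmin ?_ ?_)
  · intro q hq hqN
    rcases (twc_ft_prime_dvd_Nbal hQp hThp hq).1 hqN with h'' | h'' | h''
    · rcases hcoverN q hq h'' with h3 | ⟨h3, h4⟩
      · exact Or.inl (Finset.mem_union_left _ h3)
      · by_cases hqQ : q ∈ Q
        · exact Or.inl (Finset.mem_union_right _ hqQ)
        · by_cases hqTh : q ∈ ThP.image (fun ℓ : Nat.Primes => (ℓ : ℕ))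
          · exact Or.inl (Finset.mem_union_left _ (Finset.mem_union_right _ hqTh))
          · exact Or.inr ⟨twc_ft_not_sq_dvd hsq hQp hThp hq hqQ hqTh, h3, h4⟩
    · exact Or.inl (Finset.mem_union_right _ h'')
    · exact Or.inl (Finset.mem_union_left _ (Finset.mem_union_right _ h''))
  · intro q hqS hq hqp
    obtain ⟨hqN, hqTh⟩ := hSminN q hqS hq hqp
    have hqQ : q ∉ Q := fun h' => (hQ q h').2 (hNS q hq hqN)
    exact ⟨dvd_trans hqN (twc_fr_N_dvd_Nbal N Q _), twc_ft_not_sq_dvd hsq hQp hThp hq hqQ hqTh⟩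

/-- **the type of the push-forward to the unipotent level, with harmless primes.** -/
theorem m59ct_ft_isType_level [Fact p.Prime] (hp2 : p ≠ 2) (hp𝒪 : (p : 𝒪) ∈ maximalIdeal 𝒪)
    (hpN : ¬ p ∣ N) (hpS : p ∈ S) (hNS : ∀ ℓ : ℕ, ℓ.Prime → ℓ ∣ N → ℓ ∈ S) (hsq : Squarefree N)
    (hQ : ∀ t ∈ Q, t.Prime ∧ t ∉ S) (hThN : ∀ ℓ ∈ ThP, (ℓ : ℕ) ∣ N)
    (ρbar : ResidualGaloisRep (ResidueField 𝒪)) (hcompat : twt_Compat θ ρbar)
    (Smin : Finset ℕ) (hpSmin : p ∈ Smin)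
    (hcoverN : ∀ q : ℕ, q.Prime → q ∣ N →
      q ∈ Smin ∪ ThP.image (fun ℓ : Nat.Primes => (ℓ : ℕ)) ∨
        (ρbar.IsUnramifiedAt q ∧ m59m_IsHarmless p ρbar q))
    (hSminN : ∀ q ∈ Smin, q.Prime → q ≠ p →
      q ∣ N ∧ q ∉ ThP.image (fun ℓ : Nat.Primes => (ℓ : ℕ)))
    (Bg : twe_Big L (ThP.image fun ℓ : Nat.Primes => (ℓ : ℕ)))
    (hloc : IsLocalHom (Bg.π1 : Bg.T'' →+* L.T'))
    (r'' : FramedRep Bg.T'') (h : Bg.H''.ρ.IsEquiv r''.toGaloisRepAdic) :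
    twc_IsType p Smin ThP Q (r''.map (Bg.π1 : Bg.T'' →+* L.T') hloc).toGaloisRepAdic := by
  classical
  have hNS' := twc_ft_hNS (Th := ∅) hNS (fun t ht => (hQ t ht).1) (by simp)
  exact twc_hp_isType_map _ hloc (twc_fr_π1_surjective hNS' Bg) r''
    (m59ct_ft_isType_big hp2 hp𝒪 hpN hpS hNS hsq hQ hThN ρbar hcompat Smin hpSmin hcoverN hSminN
      Bg r'' h)

end types

end

end Fermat.Agent.M59
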