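import Fermat.Agent.TW.Def.PatchLvMain4
import Fermat.Agent.M59.LG.AsTwin
import Fermat.Agent.M59.C.Present

/-!
# Project M59 (S59), box [C + S38g], cell [C-top] (helper21; prefix `m59ct_`): C/LevelAsm for an
ABSTRACT type

`m59ct_levelAsm_gen` : the level input `twc_LvIn2` at every patching level, exactly as
`m59ct_levelAsm` (`M59/S38g/CTop/LevelAsm.lean`), but

* the hypothesis `¬ p ∣ N` is DROPPED (`ℓ ≠ p` at the hard primes comes from `ℓ % p = 1`);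
* the type `twc_IsType p Smin ThP Q` (flat at `p`) is replaced by an ABSTRACT predicate
  `Ty : Finset ℕ → twc_HPair 𝒪 rb → Prop` on Hecke pairs with
  (T1) `Ty Q H → det H.r` cyclotomic, (T2) `Ty Q` stable under push-forward (`twc_hp_push`),
  (T3) `Ty Q` of every framing of the big Hecke–Galois datum `Bg.H''` (hypothesis `hTyBig`),
  (T4) the cotangent bound for `Ty (image qv)` (hypothesis `h4`, `twc_LocNoEps` form).

The instance `Ty Q H := m59c_IsType p Pp Smin ThP Q H` (`Pp` ARBITRARY: flat, strictly ordinary, …):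
(T1) is `.1`, (T2) is `m59ct_isType_push` (the clause at `p` quantifies over all surjections to
`k[ε]`, hence is stable under push-forward for free); the bound (T4) in the `m59c_LocCob` form of
`m59c_finrank_le` gives the `twc_LocNoEps` form by `m59ct_locCob_of_noEps`.
`m59ct_levelAsm_isType` is the resulting statement for `m59c_IsType p Pp`.
-/

set_option autoImplicit false
set_option linter.unusedSectionVars false
set_option linter.style.haveILetI false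
set_option linter.unusedVariables false

open Polynomial CuspForm IsLocalRing ExtCitation
open Fermat.Agent.S53 Fermat.Agent.S56 Fermat.Agent.JT3
open Fermat.Agent.TW

namespace Fermat.Agent.M59

noncomputable section

local notation "GQ" => (AlgebraicClosure ℚ ≃ₐ[ℚ] AlgebraicClosure ℚ)
local notation "Qbar" => AlgebraicClosure ℚ

attribute [local instance] S53.dualNumberAlgebra

/-! ### the generic type under push-forward -/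

section closure

variable {𝒪 : Type} [CommRing 𝒪] [IsLocalRing 𝒪] {rb : FramedResidual (ResidueField 𝒪)}

/-- the frame of a push-forward. -/
theorem m59ct_frame_push (P : twc_HPair 𝒪 rb)
    (T' : Type) [CommRing T'] [IsLocalRing T'] [IsNoetherianRing T']
    [IsAdicComplete (maximalIdeal T') T'] [Algebra 𝒪 T'] [IsLocalHom (algebraMap 𝒪 T')]
    (q : P.T →ₐ[𝒪] T') (hq : Function.Surjective q)
    (φ : (twc_hp_push P T' q hq).T →ₐ[𝒪] DualNumber (ResidueField 𝒪)) :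
    twc_frame (twc_hp_push P T' q hq).r φ =
      twc_frame P.r (φ.comp (q : P.T →ₐ[𝒪] (twc_hp_push P T' q hq).T)) := by
  refine FramedRep.ext fun σ => ?_
  rw [twc_frame_apply, twc_frame_apply, twc_hp_push_r]
  exact Matrix.ext fun i j => rfl

/-- **the generic type passes to push-forwards.** -/
theorem m59ct_isType_push {p : ℕ} {Pp : FramedRep (DualNumber (ResidueField 𝒪)) → Prop}
    {Smin : Finset ℕ} {Th : Finset Nat.Primes} {Q : Finset ℕ} (P : twc_HPair 𝒪 rb)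
    (T' : Type) [CommRing T'] [IsLocalRing T'] [IsNoetherianRing T']
    [IsAdicComplete (maximalIdeal T') T'] [Algebra 𝒪 T'] [IsLocalHom (algebraMap 𝒪 T')]
    (q : P.T →ₐ[𝒪] T') (hq : Function.Surjective q) (h : m59c_IsType p Pp Smin Th Q P) :
    m59c_IsType p Pp Smin Th Q (twc_hp_push P T' q hq) := by
  obtain ⟨h1, h2, h3, h4⟩ := h
  have hloc : IsLocalHom (q : P.T →+* T') := IsLocalHom.of_surjective (q : P.T →+* T') hq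
  obtain ⟨e⟩ := FramedRep.baseChangeAlong_isEquiv (q : P.T →+* T') hloc P.r
  refine ⟨s56t_tr_detIsCyclotomic e (s56bc_det (q : P.T →+* T') hloc _ p h1), ?_, ?_, ?_⟩
  · intro hpS φ hφ
    rw [m59ct_frame_push]
    exact h2 hpS (φ.comp (q : P.T →ₐ[𝒪] (twc_hp_push P T' q hq).T)) (hφ.comp hq)
  · intro ℓ hℓ hℓn
    exact s56t_tr_isUnramifiedAt e (s56bc_unramified (q : P.T →+* T') hloc _ ℓ (h3 ℓ hℓ hℓn))
  · intro ℓ hℓS hℓ hℓp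
    exact s56t_tr_isUnipotentOnInertiaAt e
      (s56bc_unipotent (q : P.T →+* T') hloc _ ℓ (h4 ℓ hℓS hℓ hℓp))

/-- **`twc_LocNoEps` gives `m59c_LocCob`** (the cocycle vanishes on the decomposition groups at the
hard primes). -/
theorem m59ct_locCob_of_noEps {p : ℕ} [CharP (ResidueField 𝒪) p] {Th : Finset Nat.Primes}
    (td : twc_TameData p Th) (H : twc_HPair 𝒪 rb)
    (hunr : ∀ ℓ ∈ Th, ∀ τ ∈ (primeLocalPlace ℓ).inertiaSubgroupIn ℚ, rb τ = 1)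
    (φ : H.T →ₐ[𝒪] DualNumber (ResidueField 𝒪)) (hφ : twc_LocNoEps td H φ) :
    m59c_LocCob Th H φ := by
  intro ℓ hℓ
  refine ⟨0, Matrix.trace_zero _ _, fun τ hτ => ?_⟩
  rw [Matrix.mul_zero, Matrix.zero_mul, sub_zero]
  exact twc_frame_coc_loc' td H φ hφ hunr ℓ hℓ τ hτ

end closure

/-! ### the `χ`-system for an abstract type -/

/-- **the `χ`-system on the image of the Hecke ring in `End(M^χ)`** for an abstract type `Ty` stable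
under push-forward (twin of `twc_la_chiSys`). -/
theorem m59ct_la_chiSys_gen {𝒪 : Type} [CommRing 𝒪] [IsLocalRing 𝒪]
    {rb : FramedResidual (ResidueField 𝒪)}
    {p : ℕ} [Fact p.Prime] {Th : Finset Nat.Primes} (td : twc_TameData p Th) (a : Nat.Primes → 𝒪)
    (P : twc_HPair 𝒪 rb)
    (hrbI : ∀ ℓ ∈ Th, ∀ τ ∈ (primeLocalPlace ℓ).inertiaSubgroupIn ℚ, rb τ = 1)
    (hφa : ∀ ℓ ∈ Th, rb (td.gφ ℓ) = Matrix.scalar (Fin 2) (residue 𝒪 (a ℓ)))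
    (hℓp : ∀ ℓ ∈ Th, (ℓ : ℕ) ≠ p) (hℓ1 : ∀ ℓ ∈ Th, (ℓ : ℕ) % p = 1)
    {r d g : ℕ} (hd : 0 < d) {B' : Type} [CommRing B'] [Algebra 𝒪 B'] [Nontrivial B']
    (yB : Fin r → B') (act : P.T →ₐ[𝒪] Matrix (Fin d) (Fin d) B')
    (hgeom : ∀ ℓ ∈ Th, ∀ i j, act ((∑ k ∈ Finset.range p, P.r (td.gσ ℓ) ^ k) i j) = 0)
    (Ty : twc_HPair 𝒪 rb → Prop)
    (hTydet : ∀ H : twc_HPair 𝒪 rb, Ty H → H.r.toGaloisRepAdic.DetIsCyclotomic p)
    (hTypush : ∀ (H : twc_HPair 𝒪 rb) (T' : Type) [CommRing T'] [IsLocalRing T']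
      [IsNoetherianRing T'] [IsAdicComplete (maximalIdeal T') T'] [Algebra 𝒪 T']
      [IsLocalHom (algebraMap 𝒪 T')] (q : H.T →ₐ[𝒪] T') (hq : Function.Surjective q),
      Ty H → Ty (twc_hp_push H T' q hq))
    (hType : Ty P)
    (hfin : ∀ (H : twc_HPair 𝒪 rb), Ty H →
      ∀ (ι : Type) (z : ι → maximalIdeal H.T),
        (∀ φ : H.T →ₐ[𝒪] DualNumber (ResidueField 𝒪), (∀ i, φ (z i : H.T) = 0) →
          twc_LocNoEps td H φ) →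
        Module.finrank (ResidueField H.T) (CotangentSpace H.T ⧸ twc_relW 𝒪 z) ≤ g)
    (u : Fin r → P.T) (u_mem : ∀ i, u i - 1 ∈ maximalIdeal P.T)
    (act_u : ∀ i, act (u i) = Matrix.scalar (Fin d) (1 + yB i)) :
    ∃ (sχ : twc_LvSys 𝒪 r d g (↥Th × Fin 2 × Fin 2 × Fin 2)
        ((↥Th × Fin 2 × Fin 2 × Fin 2) ⊕ Fin g) Sum.inl
        (twb_r8_Jhash 𝒪 (Fin g) p (fun ℓ : ↥Th => a ℓ)
          (fun ℓ : ↥Th => ((ℓ : Nat.Primes) : ℕ))) B' yB)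
      (πχ : P.T →ₐ[𝒪] sχ.T), Function.Surjective πχ ∧
      (∀ c, (sχ.z c : sχ.T) = πχ (twc_lm_z td a P hrbI hφa c)) ∧
      (∀ i, sχ.u i = πχ (u i)) ∧ ∀ x, sχ.act (πχ x) = act x := by
  classical
  -- the kernel of `act`
  set Kχ : Ideal P.T := RingHom.ker (act : P.T →+* Matrix (Fin d) (Fin d) B') with hKχdef
  have hKχ : Kχ ≠ ⊤ := by
    intro h
    rw [Ideal.eq_top_iff_one, hKχdef, RingHom.mem_ker, map_one] at h
    have h1 := congrFun (congrFun h ⟨0, hd⟩) ⟨0, hd⟩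
    rw [Matrix.one_apply_eq, Matrix.zero_apply] at h1
    exact one_ne_zero h1
  haveI hlocχ : IsLocalRing (P.T ⧸ Kχ) := twb_qi_isLocalRing hKχ
  haveI : IsAdicComplete (maximalIdeal (P.T ⧸ Kχ)) (P.T ⧸ Kχ) := twb_qi_isAdicComplete
  haveI : IsLocalHom (algebraMap 𝒪 (P.T ⧸ Kχ)) := twc_hp_quot_isLocalHom P Kχ
  have hmks : Function.Surjective (Ideal.Quotient.mk Kχ) := Ideal.Quotient.mk_surjective
  set Pχ : twc_HPair 𝒪 rb := twc_hp_quot P Kχ hKχ with hPχ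
  have htypeχ : Ty Pχ :=
    hTypush P (P.T ⧸ Kχ) (Ideal.Quotient.mkₐ 𝒪 Kχ) (Ideal.Quotient.mkₐ_surjective 𝒪 Kχ) hType
  have hgeomχ : ∀ ℓ ∈ Th, ∑ k ∈ Finset.range p, Pχ.r (td.gσ ℓ) ^ k = 0 := by
    intro ℓ hℓ
    have h1 : ∀ k : ℕ, Pχ.r (td.gσ ℓ) ^ k =
        (Ideal.Quotient.mk Kχ).mapMatrix (P.r (td.gσ ℓ) ^ k) := by
      intro k
      rw [map_pow]
      rfl
    ext i j
    have h3 : (∑ k ∈ Finset.range p, Pχ.r (td.gσ ℓ) ^ k) i j =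
        Ideal.Quotient.mk Kχ ((∑ k ∈ Finset.range p, P.r (td.gσ ℓ) ^ k) i j) := by
      rw [Matrix.sum_apply, Matrix.sum_apply, map_sum]
      refine Finset.sum_congr rfl fun k _ => ?_
      rw [h1 k]
      rfl
    rw [h3, Matrix.zero_apply]
    refine (Ideal.Quotient.eq_zero_iff_mem (I := Kχ)).2 ?_
    rw [hKχdef, RingHom.mem_ker]
    exact hgeom ℓ hℓ i j
  -- the action descends
  let actχ' : P.T ⧸ Kχ →ₐ[𝒪] Matrix (Fin d) (Fin d) B' :=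
    Ideal.Quotient.liftₐ Kχ act (fun x hx => hx)
  have u_memχ : ∀ i, Ideal.Quotient.mk Kχ (u i) - 1 ∈ maximalIdeal (P.T ⧸ Kχ) := fun i => by
    haveI : IsLocalHom (Ideal.Quotient.mk Kχ) := IsLocalHom.of_surjective _ hmks
    have h2 : (Ideal.Quotient.mk Kχ) (u i - 1) ∈ maximalIdeal (P.T ⧸ Kχ) :=
      map_nonunit (Ideal.Quotient.mk Kχ) _ (u_mem i)
    rw [map_sub, map_one] at h2
    exact h2
  have hactχu' : ∀ i, actχ' (Ideal.Quotient.mk Kχ (u i)) = Matrix.scalar (Fin d) (1 + yB i) :=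
    fun i => act_u i
  refine ⟨twc_lm_sysχ td a Pχ hrbI hφa hℓp hℓ1 (hTydet Pχ htypeχ) hgeomχ yB (hfin Pχ htypeχ)
    actχ' (fun i => Ideal.Quotient.mk Kχ (u i)) u_memχ hactχu',
    (Ideal.Quotient.mkₐ 𝒪 Kχ : P.T →ₐ[𝒪] P.T ⧸ Kχ), Ideal.Quotient.mkₐ_surjective 𝒪 Kχ, ?_, ?_, ?_⟩
  · intro c
    exact twc_lm_z_push td a P hrbI hφa (P.T ⧸ Kχ) (Ideal.Quotient.mkₐ 𝒪 Kχ)
      (Ideal.Quotient.mkₐ_surjective 𝒪 Kχ) c
  · intro i
    rfl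
  · intro x
    rfl

/-! ### C/LevelAsm for an abstract type -/

/-- **C/LevelAsm for an abstract type `Ty`** (twin of `m59ct_levelAsm`, no hypothesis `¬ p ∣ N`). -/
theorem m59ct_levelAsm_gen (p : ℕ) [Fact p.Prime] (hp2 : p ≠ 2)
    (𝒪 : Type) [CommRing 𝒪] [IsDomain 𝒪] [IsDiscreteValuationRing 𝒪]
    [IsAdicComplete (maximalIdeal 𝒪) 𝒪] [Finite (ResidueField 𝒪)] [CharZero 𝒪]
    (hp𝒪 : (p : 𝒪) ∈ maximalIdeal 𝒪)
    (lam : 𝒪) (hlam : maximalIdeal 𝒪 = Ideal.span {lam})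
    (ζ : 𝒪) (hζ : IsPrimitiveRoot ζ p)
    (N : ℕ) [NeZero N] (hsq : Squarefree N)
    (S : Finset ℕ) (hpS : p ∈ S) (hNS : ∀ ℓ : ℕ, ℓ.Prime → ℓ ∣ N → ℓ ∈ S)
    (Smin : Finset ℕ) (hpSmin : p ∈ Smin) (hSminN' : ∀ q ∈ Smin, q.Prime → q ≠ p → q ∣ N)
    (θ : heckeAlgebra N 2 (↑S : Set ℕ) →+* ResidueField 𝒪)
    (rb : FramedResidual (ResidueField 𝒪))
    (hcompat : twt_Compat θ rb.toResidualGaloisRep)
    (hmin : ∀ q : ℕ, q.Prime → q ≠ p →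
      (q ∈ Smin ↔ ¬ rb.toResidualGaloisRep.IsUnramifiedAt q))
    (ThP : Finset Nat.Primes)
    (hThP : ∀ ℓ ∈ ThP, (ℓ : ℕ) ∣ N ∧ (ℓ : ℕ) ∉ Smin ∧ (ℓ : ℕ) % p = 1 ∧
      twt_FrobScalar rb.toResidualGaloisRep ℓ)
    (td : twc_TameData p ThP) (hgen : twib_InertiaGen td)
    (a : Nat.Primes → 𝒪)
    (hφa : ∀ ℓ ∈ ThP, rb (td.gφ ℓ) = Matrix.scalar (Fin 2) (residue 𝒪 (a ℓ)))
    -- the abstract type
    (Ty : Finset ℕ → twc_HPair 𝒪 rb → Prop)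
    (hTydet : ∀ (Q : Finset ℕ) (H : twc_HPair 𝒪 rb), Ty Q H →
      H.r.toGaloisRepAdic.DetIsCyclotomic p)
    (hTypush : ∀ (Q : Finset ℕ) (H : twc_HPair 𝒪 rb) (T' : Type) [CommRing T'] [IsLocalRing T']
      [IsNoetherianRing T'] [IsAdicComplete (maximalIdeal T') T'] [Algebra 𝒪 T']
      [IsLocalHom (algebraMap 𝒪 T')] (q : H.T →ₐ[𝒪] T') (hq : Function.Surjective q),
      Ty Q H → Ty Q (twc_hp_push H T' q hq))
    (B : twe_Base 𝒪 N S θ)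
    (hB : ∀ (Q : Finset ℕ) [NeZero (twe_Nbal N Q ∅)], (∀ t ∈ Q, t ∉ S) → twe_IsTWSet θ p Q →
      Q.Nonempty →
      ∀ (Th : Finset ℕ) [NeZero (twe_Nbal N Q Th)],
        (∀ ℓ ∈ Th, ℓ.Prime ∧ ℓ ∣ N ∧ ℓ ≠ 2 ∧ ℓ % p = 1) → Th.Nonempty →
        ∃ L : twe_Level B p Q, ∃ Bg : twe_Big L Th, Bg.IsLG2)
    -- the type of the framings of the big datum
    (hTyBig : ∀ (Q : Finset ℕ) [NeZero (twe_Nbal N Q ∅)]
      [NeZero (twe_Nbal N Q (ThP.image fun ℓ : Nat.Primes => (ℓ : ℕ)))],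
      (∀ t ∈ Q, t.Prime ∧ t ∉ S ∧ t % p = 1) →
      ∀ (L : twe_Level B p Q) (Bg : twe_Big L (ThP.image fun ℓ : Nat.Primes => (ℓ : ℕ)))
        (hNS'' : ∀ ℓ : ℕ, ℓ.Prime →
          ℓ ∣ twe_Nbal N Q (ThP.image fun ℓ : Nat.Primes => (ℓ : ℕ)) → ℓ ∈ S ∪ Q)
        (r'' : FramedRep Bg.T'') (he : Bg.H''.ρ.IsEquiv r''.toGaloisRepAdic)
        (hl : r''.IsLiftOf rb (ResidueField.map (algebraMap 𝒪 Bg.T''))),
        Ty Q (twc_hp_ofFramed Bg.H'' hNS'' rb r'' he hl))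
    (r0 : FramedRep B.T) (hr0e : B.H.ρ.IsEquiv r0.toGaloisRepAdic)
    (hr0l : r0.IsLiftOf rb (ResidueField.map (algebraMap 𝒪 B.T)))
    (r : ℕ) (hr : 3 * ThP.card ≤ r)
    (m : ℕ) (qv : Fin r → ℕ) (inj : Function.Injective qv)
    (hqv : ∀ i, (qv i).Prime ∧ qv i ∉ S ∧ p ^ (m + 1) ∣ qv i - 1)
    (hfrob : ∀ i, ∀ P : ValuationSubring Qbar, P.LiesOverPrime (qv i) →
      ∀ φ : GQ, P.IsFrobeniusAt φ (qv i) → ∃ α β : ResidueField 𝒪, α ≠ β ∧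
        LinearMap.charpoly (rb.toResidualGaloisRep.ρ φ) = (X - C α) * (X - C β))
    (h4 : ∀ (H : twc_HPair 𝒪 rb), Ty (Finset.univ.image qv) H →
      ∀ (ι : Type) (z : ι → maximalIdeal H.T),
        (∀ φ : H.T →ₐ[𝒪] DualNumber (ResidueField 𝒪), (∀ i, φ (z i : H.T) = 0) →
          twc_LocNoEps td H φ) →
        Module.finrank (ResidueField H.T) (CotangentSpace H.T ⧸ twc_relW 𝒪 z) ≤
          r - 3 * ThP.card)
    (q₀ : ↥ThP) :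
    Nonempty (twc_LvIn2 𝒪 lam r (B.d * 2 ^ r) (r - 3 * ThP.card)
      (↥ThP × Fin 2 × Fin 2 × Fin 2)
      (twb_r8_Junip 𝒪 (Fin (r - 3 * ThP.card) ⊕ Fin (r - 3 * ThP.card)) p
        (fun ℓ : ↥ThP => a ℓ) (fun ℓ : ↥ThP => ((ℓ : Nat.Primes) : ℕ)))
      (twb_r8_Jhash 𝒪 (Fin (r - 3 * ThP.card)) p
        (fun ℓ : ↥ThP => a ℓ) (fun ℓ : ↥ThP => ((ℓ : Nat.Primes) : ℕ)))
      (twds_a 𝒪 r) (twds_b 𝒪 r (p ^ m)) (twds_b_le_a r (p ^ m)) B.T (twc_j B r)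
      (fun i k => (q₀, 0, i, k)) (fun i k => (r0 (td.gσ q₀) - 1) i k)) := by
  classical
  have hpp : p.Prime := Fact.out
  have hp3 : 3 ≤ p := by have := hpp.two_le; omega
  have hℓp : ∀ ℓ ∈ ThP, ((ℓ : Nat.Primes) : ℕ) ≠ p := by
    intro ℓ hℓ h
    have h1 := (hThP ℓ hℓ).2.2.1
    rw [h, Nat.mod_self] at h1
    exact zero_ne_one h1
  have hTh2' : ∀ ℓ ∈ ThP, ((ℓ : Nat.Primes) : ℕ) ≠ 2 := by
    intro ℓ hℓ h
    have h1 := (hThP ℓ hℓ).2.2.1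
    rw [h, Nat.mod_eq_of_lt (by omega)] at h1
    omega
  haveI : CharP (ResidueField 𝒪) p := s56a_charP p hp𝒪
  obtain ⟨hTW, hQS⟩ := twt_ts_isTWSet θ rb.toResidualGaloisRep hcompat qv hqv hfrob
  have hQmem : ∀ i, qv i ∈ Finset.univ.image qv := fun i =>
    Finset.mem_image.2 ⟨i, Finset.mem_univ _, rfl⟩
  have hQonto : ∀ t ∈ Finset.univ.image qv, ∃ i, qv i = t := fun t ht => by
    obtain ⟨i, -, hi⟩ := Finset.mem_image.1 ht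
    exact ⟨i, hi⟩
  have hQp : ∀ t ∈ Finset.univ.image qv, t.Prime := fun t ht => by
    obtain ⟨i, rfl⟩ := hQonto t ht
    exact (hqv i).1
  have hQ : ∀ t ∈ Finset.univ.image qv, t.Prime ∧ t ∉ S := fun t ht => ⟨hQp t ht, hQS t ht⟩
  have hQ1 : ∀ t ∈ Finset.univ.image qv, t.Prime ∧ t ∉ S ∧ t % p = 1 := by
    intro t ht
    refine ⟨hQp t ht, hQS t ht, ?_⟩
    obtain ⟨i, rfl⟩ := hQonto t ht
    have h1 : p ∣ qv i - 1 := (dvd_pow_self p (Nat.succ_ne_zero m)).trans (hqv i).2.2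
    have h2 : 1 ≤ qv i := (hqv i).1.one_lt.le
    have h3 : (qv i) % p = 1 % p := ((Nat.modEq_iff_dvd' h2).mpr h1).symm
    rw [h3, Nat.mod_eq_of_lt hpp.one_lt]
  have hThN : ∀ ℓ ∈ ThP, (ℓ : ℕ) ∣ N := fun ℓ hℓ => (hThP ℓ hℓ).1
  have hTh := twc_ft_hTh (N := N) hThN
  haveI : NeZero (twe_Nbal N (Finset.univ.image qv) ∅) :=
    ⟨twc_la_nbal_ne (NeZero.ne N) (fun t ht => (hQp t ht).ne_zero) (by simp)⟩
  haveI : NeZero (twe_Nbal N (Finset.univ.image qv) (ThP.image fun ℓ : Nat.Primes => (ℓ : ℕ))) :=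
    ⟨twc_la_nbal_ne (NeZero.ne N) (fun t ht => (hQp t ht).ne_zero)
      (fun ℓ hℓ => (hTh ℓ hℓ).1.ne_zero)⟩
  have hr0 : 0 < r := by
    have h1 : 0 < ThP.card := Finset.card_pos.2 ⟨q₀.1, q₀.2⟩
    omega
  obtain ⟨L, Bg, hBg⟩ := hB (Finset.univ.image qv) hQS hTW
    ⟨qv ⟨0, hr0⟩, Finset.mem_image.2 ⟨⟨0, hr0⟩, Finset.mem_univ _, rfl⟩⟩
    (ThP.image fun ℓ : Nat.Primes => (ℓ : ℕ)) (fun ℓ hℓ => by
      obtain ⟨ℓ', hℓ', rfl⟩ := Finset.mem_image.1 hℓ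
      exact ⟨ℓ'.2, (hThP ℓ' hℓ').1, hTh2' ℓ' hℓ', (hThP ℓ' hℓ').2.2.1⟩)
    ⟨(q₀.1 : ℕ), Finset.mem_image.2 ⟨q₀.1, q₀.2, rfl⟩⟩
  -- the character
  obtain ⟨χ, -, hχprim, hχm, hχlam⟩ := twlg_cm_exists p hp𝒪 ζ hζ
    (ThP.image fun ℓ : Nat.Primes => (ℓ : ℕ)) (fun ℓ hℓ => by
      obtain ⟨ℓ', hℓ', rfl⟩ := Finset.mem_image.1 hℓ
      exact ⟨ℓ'.2, (hThP ℓ' hℓ').2.2.1⟩)
  -- block [A]
  have hunr : ∀ ℓ : ℕ, ℓ.Prime → ℓ ∉ Smin → ℓ ≠ p → rb.toResidualGaloisRep.IsUnramifiedAt ℓ := by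
    intro ℓ hℓ hℓS hℓp
    by_contra hcon
    exact hℓS ((hmin ℓ hℓ hℓp).2 hcon)
  have hunrQ : ∀ t ∈ Finset.univ.image qv, rb.toResidualGaloisRep.IsUnramifiedAt t := by
    intro t ht
    have htp : t ≠ p := fun h => hQS t ht (h ▸ hpS)
    refine hunr t (hQp t ht) (fun h => ?_) htp
    exact hQS t ht (hNS t (hQp t ht) (hSminN' t h (hQp t ht) htp))
  have hunrTh : ∀ ℓ ∈ ThP.image (fun ℓ : Nat.Primes => (ℓ : ℕ)),
      rb.toResidualGaloisRep.IsUnramifiedAt ℓ := by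
    intro ℓ hℓ
    obtain ⟨ℓ', hℓ', rfl⟩ := Finset.mem_image.1 hℓ
    exact hunr _ ℓ'.2 (hThP ℓ' hℓ').2.1 (hℓp ℓ' hℓ')
  have hThsq : ∀ ℓ ∈ ThP.image (fun ℓ : Nat.Primes => (ℓ : ℕ)), ¬ ℓ ^ 2 ∣ N := by
    intro ℓ hℓ h
    obtain ⟨ℓ', hℓ', rfl⟩ := Finset.mem_image.1 hℓ
    have h1 : IsUnit ((ℓ' : ℕ)) := hsq _ (by rwa [pow_two] at h)
    exact ℓ'.2.one_lt.ne' (Nat.isUnit_iff.mp h1)
  have hfrobQ : ∀ t ∈ Finset.univ.image qv, ∀ P : ValuationSubring Qbar, P.LiesOverPrime t →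
      ∀ φ : GQ, P.IsFrobeniusAt φ t → ∃ α β : ResidueField 𝒪, α ≠ β ∧
        LinearMap.charpoly (rb.toResidualGaloisRep.ρ φ) = (X - C α) * (X - C β) := by
    intro t ht
    obtain ⟨i, rfl⟩ := hQonto t ht
    exact hfrob i
  obtain ⟨u, hu_mem, hu_pow, hu_sub, hsub_u⟩ := m59lg_tw2 hp2 hp𝒪 ζ hζ hpS hNS
    rb.toResidualGaloisRep hcompat hunrQ hQS hTW hfrobQ hTh Bg hBg
  have hX : ∀ r1 : FramedRep Bg.T'', Bg.H''.ρ.IsEquiv r1.toGaloisRepAdic →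
      ∀ ℓ : Nat.Primes, ℓ ∈ ThP → ∀ (i j : Fin 2) (y : Bg.Mb),
        (∑ k ∈ Finset.range p, r1 (td.gσ ℓ) ^ k) i j • y ∈
          twc_chiSub (G := twe_Delta p (Finset.univ.image qv)) (Mb := Bg.Mb) χ :=
    fun r1 hr1 ℓ hℓ => m59lg_x hp2 hp𝒪 hThsq hpS hNS rb.toResidualGaloisRep hcompat hunrTh hQS
      hTW hTh td hgen (fun ℓ' hℓ' => ⟨Finset.mem_image_of_mem _ hℓ', hTh2' ℓ' hℓ',
        (hThP ℓ' hℓ').2.2.1⟩) Bg hBg χ hχprim r1 hr1 ℓ hℓ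
  -- the matrix actions
  have hord : ∀ i, p ^ m ∣ twe_ord p (qv i) := fun i =>
    twt_ts_pow_dvd_ord (hqv i).1.one_lt ((pow_dvd_pow p (Nat.le_succ m)).trans (hqv i).2.2)
  obtain ⟨act1, actχ, hcong, hact1u, hactχu, hmod, hzero⟩ :=
    twc_am_Act 𝒪 lam p hp𝒪 N S θ B (Finset.univ.image qv) L
      (ThP.image fun ℓ : Nat.Primes => (ℓ : ℕ)) Bg r qv hQmem inj hQonto m hord u hu_pow hu_sub
      hsub_u χ (hχlam lam hlam)
  -- the frames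
  have hNS' : ∀ ℓ : ℕ, ℓ.Prime → ℓ ∣ twe_Nbal N (Finset.univ.image qv) ∅ →
      ℓ ∈ S ∪ Finset.univ.image qv := twc_ft_hNS (Th := ∅) hNS hQp (by simp)
  have hNS'' : ∀ ℓ : ℕ, ℓ.Prime →
      ℓ ∣ twe_Nbal N (Finset.univ.image qv) (ThP.image fun ℓ : Nat.Primes => (ℓ : ℕ)) →
      ℓ ∈ S ∪ Finset.univ.image qv := twc_ft_hNS hNS hQp hTh
  obtain ⟨r'', hloc, hr''e, hr''l, hr''0⟩ := twc_fr_big hNS hNS'' Bg rb hcompat r0 hr0e hr0l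
  have hπ1s : Function.Surjective Bg.π1 := twc_fr_π1_surjective hNS' Bg
  have hloc1 : IsLocalHom (Bg.π1 : Bg.T'' →+* L.T') := twc_fr_π1_isLocalHom hNS' Bg
  -- the Hecke pairs
  set P2 : twc_HPair 𝒪 rb := twc_hp_ofFramed Bg.H'' hNS'' rb r'' hr''e hr''l with hP2
  set P1 : twc_HPair 𝒪 rb := twc_hp_push P2 L.T' Bg.π1 hπ1s with hP1
  -- the types
  have htype2 : Ty (Finset.univ.image qv) P2 :=
    hTyBig (Finset.univ.image qv) hQ1 L Bg hNS'' r'' hr''e hr''l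
  have htype1 : Ty (Finset.univ.image qv) P1 :=
    hTypush (Finset.univ.image qv) P2 L.T' Bg.π1 hπ1s htype2
  have hℓ1 : ∀ ℓ ∈ ThP, ((ℓ : Nat.Primes) : ℕ) % p = 1 := fun ℓ hℓ => (hThP ℓ hℓ).2.2.1
  have hThmin : ∀ ℓ ∈ ThP, ((ℓ : Nat.Primes) : ℕ) ∉ Smin := fun ℓ hℓ => (hThP ℓ hℓ).2.1
  have hrbI := twc_rb_unram rb p Smin hpSmin hmin ThP hThmin
  have hun : ∀ ℓ ∈ ThP, P1.r.toGaloisRepAdic.IsUnipotentOnInertiaAt ((ℓ : Nat.Primes) : ℕ) := by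
    intro ℓ hℓ
    have hℓN : (ℓ : ℕ) ∣ N := hThN ℓ hℓ
    have hℓQ : (ℓ : ℕ) ∉ Finset.univ.image qv := fun h' => (hQ _ h').2 (hNS _ ℓ.2 hℓN)
    exact twc_fr_level_unip hpp hp𝒪 hpS hNS' Bg hloc1 r'' hr''e (ℓ : ℕ) ℓ.2 (hℓp ℓ hℓ)
      (dvd_trans hℓN (twc_fr_N_dvd_Nbal N (Finset.univ.image qv) ∅))
      (twc_ft_not_sq_dvd hsq hQp (by simp) ℓ.2 hℓQ (by simp))
  -- the unipotent system
  have u_mem1 : ∀ i, Bg.π1 (u (qv i) (hQmem i)) - 1 ∈ maximalIdeal P1.T := fun i => by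
    have h2 : (Bg.π1 : Bg.T'' →+* L.T') (u (qv i) (hQmem i) - 1) ∈ maximalIdeal L.T' :=
      map_nonunit (Bg.π1 : Bg.T'' →+* L.T') _ (hu_mem (qv i) (hQmem i))
    rw [RingHom.coe_coe, map_sub, map_one] at h2
    exact h2
  have hact1u' : ∀ i, act1 (Bg.π1 (u (qv i) (hQmem i))) =
      Matrix.scalar (Fin (B.d * 2 ^ r))
        (1 + Ideal.Quotient.mk (twds_b 𝒪 r (p ^ m)) (MvPowerSeries.X i)) := fun i => by
    rw [hact1u i, map_add, map_one]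
  set s1 := twc_lm_sys1 hp2 td a P1 hrbI hφa hℓp (hTydet _ P1 htype1) hun
    (fun i => Ideal.Quotient.mk (twds_b 𝒪 r (p ^ m)) (MvPowerSeries.X i)) (h4 P1 htype1) act1
    (fun i => Bg.π1 (u (qv i) (hQmem i))) u_mem1 hact1u' with hs1
  have hlam_mem : lam ∈ maximalIdeal 𝒪 := by
    rw [hlam]; exact Ideal.subset_span rfl
  have hd : 0 < B.d * 2 ^ r := Nat.mul_pos B.d_pos (pow_pos (by norm_num) r)
  -- the `χ`-system
  have hχsys : ∃ (sχ : twc_LvSys 𝒪 r (B.d * 2 ^ r) (r - 3 * ThP.card)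
      (↥ThP × Fin 2 × Fin 2 × Fin 2) ((↥ThP × Fin 2 × Fin 2 × Fin 2) ⊕ Fin (r - 3 * ThP.card))
      Sum.inl (twb_r8_Jhash 𝒪 (Fin (r - 3 * ThP.card)) p
        (fun ℓ : ↥ThP => a ℓ) (fun ℓ : ↥ThP => ((ℓ : Nat.Primes) : ℕ)))
      (MvPowerSeries (Fin r) 𝒪 ⧸ twds_b 𝒪 r (p ^ m))
      (fun i => Ideal.Quotient.mk (twds_b 𝒪 r (p ^ m)) (MvPowerSeries.X i)))
      (πχ : P2.T →ₐ[𝒪] sχ.T), Function.Surjective πχ ∧
      (∀ c, (sχ.z c : sχ.T) = πχ (twc_lm_z td a P2 hrbI hφa c)) ∧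
      (∀ i, sχ.u i = πχ (u (qv i) (hQmem i))) ∧ ∀ x, sχ.act (πχ x) = actχ x := by
    have hgeom2 : ∀ ℓ ∈ ThP, ∀ i j,
        actχ ((∑ k ∈ Finset.range p, P2.r (td.gσ ℓ) ^ k) i j) = 0 := by
      intro ℓ hℓ i j
      refine hzero _ fun y => ?_
      exact hX r'' hr''e ℓ hℓ i j y
    haveI : Nontrivial (MvPowerSeries (Fin r) 𝒪 ⧸ twds_b 𝒪 r (p ^ m)) := by
      by_contra hcon
      rw [not_nontrivial_iff_subsingleton] at hcon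
      refine twc_la_hnt hlam_mem r (p ^ m) ?_
      rw [Ideal.eq_top_iff_one, Subsingleton.elim (1 : MvPowerSeries (Fin r) 𝒪 ⧸ _) 0]
      exact Ideal.zero_mem _
    have hactχu' : ∀ i, actχ (u (qv i) (hQmem i)) =
        Matrix.scalar (Fin (B.d * 2 ^ r))
          (1 + Ideal.Quotient.mk (twds_b 𝒪 r (p ^ m)) (MvPowerSeries.X i)) := fun i => by
      rw [hactχu i, map_add, map_one]
    exact m59ct_la_chiSys_gen td a P2 hrbI hφa hℓp hℓ1 hd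
      (fun i => Ideal.Quotient.mk (twds_b 𝒪 r (p ^ m)) (MvPowerSeries.X i)) actχ hgeom2
      (Ty (Finset.univ.image qv)) (hTydet _) (fun H T' _ _ _ _ _ _ q hq => hTypush _ H T' q hq)
      htype2 h4 (fun i => u (qv i) (hQmem i)) (fun i => hu_mem (qv i) (hQmem i)) hactχu'
  obtain ⟨sχ, πχ, hπχs, hzχ, huχ, hactχ⟩ := hχsys
  -- the assembly
  refine twc_lvin2_of_two hd (twc_la_hnt hlam_mem r (p ^ m)) (twc_la_hfin hlam p hp𝒪 r m) s1 sχ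
    Bg.T'' (Bg.π1 : P2.T →ₐ[𝒪] P1.T) πχ hπ1s hπχs
    (fun c => (twc_lm_z td a P2 hrbI hφa c : P2.T)) ?_ hzχ
    (fun i => u (qv i) (hQmem i)) ?_ huχ ?_ L.π0 ?_ ?_
  · intro c
    exact twc_lm_z_push td a P2 hrbI hφa L.T' Bg.π1 hπ1s c
  · intro i
    rfl
  · intro x
    have h := hcong x
    rw [← hactχ x] at h
    exact h
  · intro t
    exact hmod t
  · intro i k
    have h1 : r0 (td.gσ q₀) = (r'' (td.gσ q₀)).map
        ((L.π0.comp Bg.π1 : Bg.T'' →ₐ[𝒪] B.T) : Bg.T'' →+* B.T) := by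
      rw [← hr''0, FramedRep.map_apply]
    show L.π0 (((r'' (td.gσ q₀)).map Bg.π1 - 1) i k) = _
    rw [h1]
    by_cases hik : i = k
    · subst hik
      simp [Matrix.sub_apply, Matrix.map_apply]
    · simp [Matrix.sub_apply, Matrix.map_apply, Matrix.one_apply_ne hik]

/-- **C/LevelAsm for the generic type `m59c_IsType p Pp Smin ThP Q`**, `Pp` arbitrary; the cotangent
bound in the `m59c_LocCob` form of `m59c_finrank_le`. -/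
theorem m59ct_levelAsm_isType (p : ℕ) [Fact p.Prime] (hp2 : p ≠ 2)
    (𝒪 : Type) [CommRing 𝒪] [IsDomain 𝒪] [IsDiscreteValuationRing 𝒪]
    [IsAdicComplete (maximalIdeal 𝒪) 𝒪] [Finite (ResidueField 𝒪)] [CharZero 𝒪]
    (hp𝒪 : (p : 𝒪) ∈ maximalIdeal 𝒪)
    (lam : 𝒪) (hlam : maximalIdeal 𝒪 = Ideal.span {lam})
    (ζ : 𝒪) (hζ : IsPrimitiveRoot ζ p)
    (N : ℕ) [NeZero N] (hsq : Squarefree N)
    (S : Finset ℕ) (hpS : p ∈ S) (hNS : ∀ ℓ : ℕ, ℓ.Prime → ℓ ∣ N → ℓ ∈ S)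
    (Smin : Finset ℕ) (hpSmin : p ∈ Smin) (hSminN' : ∀ q ∈ Smin, q.Prime → q ≠ p → q ∣ N)
    (θ : heckeAlgebra N 2 (↑S : Set ℕ) →+* ResidueField 𝒪)
    (rb : FramedResidual (ResidueField 𝒪))
    (hcompat : twt_Compat θ rb.toResidualGaloisRep)
    (hmin : ∀ q : ℕ, q.Prime → q ≠ p →
      (q ∈ Smin ↔ ¬ rb.toResidualGaloisRep.IsUnramifiedAt q))
    (ThP : Finset Nat.Primes)
    (hThP : ∀ ℓ ∈ ThP, (ℓ : ℕ) ∣ N ∧ (ℓ : ℕ) ∉ Smin ∧ (ℓ : ℕ) % p = 1 ∧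
      twt_FrobScalar rb.toResidualGaloisRep ℓ)
    (td : twc_TameData p ThP) (hgen : twib_InertiaGen td)
    (a : Nat.Primes → 𝒪)
    (hφa : ∀ ℓ ∈ ThP, rb (td.gφ ℓ) = Matrix.scalar (Fin 2) (residue 𝒪 (a ℓ)))
    (Pp : FramedRep (DualNumber (ResidueField 𝒪)) → Prop)
    (B : twe_Base 𝒪 N S θ)
    (hB : ∀ (Q : Finset ℕ) [NeZero (twe_Nbal N Q ∅)], (∀ t ∈ Q, t ∉ S) → twe_IsTWSet θ p Q →
      Q.Nonempty →
      ∀ (Th : Finset ℕ) [NeZero (twe_Nbal N Q Th)],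
        (∀ ℓ ∈ Th, ℓ.Prime ∧ ℓ ∣ N ∧ ℓ ≠ 2 ∧ ℓ % p = 1) → Th.Nonempty →
        ∃ L : twe_Level B p Q, ∃ Bg : twe_Big L Th, Bg.IsLG2)
    (hTyBig : ∀ (Q : Finset ℕ) [NeZero (twe_Nbal N Q ∅)]
      [NeZero (twe_Nbal N Q (ThP.image fun ℓ : Nat.Primes => (ℓ : ℕ)))],
      (∀ t ∈ Q, t.Prime ∧ t ∉ S ∧ t % p = 1) →
      ∀ (L : twe_Level B p Q) (Bg : twe_Big L (ThP.image fun ℓ : Nat.Primes => (ℓ : ℕ)))
        (hNS'' : ∀ ℓ : ℕ, ℓ.Prime →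
          ℓ ∣ twe_Nbal N Q (ThP.image fun ℓ : Nat.Primes => (ℓ : ℕ)) → ℓ ∈ S ∪ Q)
        (r'' : FramedRep Bg.T'') (he : Bg.H''.ρ.IsEquiv r''.toGaloisRepAdic)
        (hl : r''.IsLiftOf rb (ResidueField.map (algebraMap 𝒪 Bg.T''))),
        m59c_IsType p Pp Smin ThP Q (twc_hp_ofFramed Bg.H'' hNS'' rb r'' he hl))
    (r0 : FramedRep B.T) (hr0e : B.H.ρ.IsEquiv r0.toGaloisRepAdic)
    (hr0l : r0.IsLiftOf rb (ResidueField.map (algebraMap 𝒪 B.T)))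
    (r : ℕ) (hr : 3 * ThP.card ≤ r)
    (m : ℕ) (qv : Fin r → ℕ) (inj : Function.Injective qv)
    (hqv : ∀ i, (qv i).Prime ∧ qv i ∉ S ∧ p ^ (m + 1) ∣ qv i - 1)
    (hfrob : ∀ i, ∀ P : ValuationSubring Qbar, P.LiesOverPrime (qv i) →
      ∀ φ : GQ, P.IsFrobeniusAt φ (qv i) → ∃ α β : ResidueField 𝒪, α ≠ β ∧
        LinearMap.charpoly (rb.toResidualGaloisRep.ρ φ) = (X - C α) * (X - C β))
    (h4 : ∀ (H : twc_HPair 𝒪 rb), m59c_IsType p Pp Smin ThP (Finset.univ.image qv) H →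
      ∀ (ι : Type) (z : ι → maximalIdeal H.T),
        (∀ φ : H.T →ₐ[𝒪] DualNumber (ResidueField 𝒪), (∀ i, φ (z i : H.T) = 0) →
          m59c_LocCob ThP H φ) →
        Module.finrank (ResidueField H.T) (CotangentSpace H.T ⧸ twc_relW 𝒪 z) ≤
          r - 3 * ThP.card)
    (q₀ : ↥ThP) :
    Nonempty (twc_LvIn2 𝒪 lam r (B.d * 2 ^ r) (r - 3 * ThP.card)
      (↥ThP × Fin 2 × Fin 2 × Fin 2)
      (twb_r8_Junip 𝒪 (Fin (r - 3 * ThP.card) ⊕ Fin (r - 3 * ThP.card)) p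
        (fun ℓ : ↥ThP => a ℓ) (fun ℓ : ↥ThP => ((ℓ : Nat.Primes) : ℕ)))
      (twb_r8_Jhash 𝒪 (Fin (r - 3 * ThP.card)) p
        (fun ℓ : ↥ThP => a ℓ) (fun ℓ : ↥ThP => ((ℓ : Nat.Primes) : ℕ)))
      (twds_a 𝒪 r) (twds_b 𝒪 r (p ^ m)) (twds_b_le_a r (p ^ m)) B.T (twc_j B r)
      (fun i k => (q₀, 0, i, k)) (fun i k => (r0 (td.gσ q₀) - 1) i k)) := by
  haveI : CharP (ResidueField 𝒪) p := s56a_charP p hp𝒪
  have hThmin : ∀ ℓ ∈ ThP, ((ℓ : Nat.Primes) : ℕ) ∉ Smin := fun ℓ hℓ => (hThP ℓ hℓ).2.1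
  have hrbI := twc_rb_unram rb p Smin hpSmin hmin ThP hThmin
  exact m59ct_levelAsm_gen p hp2 𝒪 hp𝒪 lam hlam ζ hζ N hsq S hpS hNS Smin hpSmin hSminN' θ rb
    hcompat hmin ThP hThP td hgen a hφa (fun Q H => m59c_IsType p Pp Smin ThP Q H)
    (fun Q H h => h.1) (fun Q H T' _ _ _ _ _ _ q hq h => m59ct_isType_push H T' q hq h)
    B hB hTyBig r0 hr0e hr0l r hr m qv inj hqv hfrob
    (fun H hT ι z hz => h4 H hT ι z
      (fun φ hφ => m59ct_locCob_of_noEps td H hrbI φ (hz φ hφ))) q₀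

end

end Fermat.Agent.M59
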