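import Fermat.Agent.M59.S38g.CTop.LevelAsm
import Fermat.Agent.TW.Top.CInput

/-!
# Project M59 (S59), box [C + S38g], cell [C-top] (helper21; prefix `m59ct_`): the final assembly
of block [C] for the [HARD] machine, flat mode

`m59ct_patchLv : m59m_M2LG_stmt → m59m_PatchLv_stmt`  (twin of `twc_pm_main4`).

* `m59ct_cinput` : twin of `twt_cinput` in the context `m59m_Ctx p N q S θ ρ̄ Sram`: the framed
  residual representation `rb` over `k' = ResidueField 𝒪` with `s56a_Hyp`, compatibility, the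
  minimal set `Smin = insert p Sram`, the hard primes `m59m_Th p N Sram` (decomposition groups
  acting through scalars) and the harmless primes.
* the assembly: `twc_finrank_le` (main, `Smin` general) for the Taylor–Wiles primes,
  `m59m_M2LG_stmt` for block [E], `m59ct_levelAsm` at every level.
-/

set_option autoImplicit false
set_option linter.unusedSectionVars false
set_option linter.style.haveILetI false

open Polynomial CuspForm IsLocalRing ExtCitation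
open Fermat.Agent.S53 Fermat.Agent.S56 Fermat.Agent.JT3
open Fermat.Agent.TW
open scoped TensorProduct

namespace Fermat.Agent.M59

noncomputable section

local notation "GQ" => (AlgebraicClosure ℚ ≃ₐ[ℚ] AlgebraicClosure ℚ)
local notation "Qbar" => AlgebraicClosure ℚ

attribute [local instance] S53.dualNumberAlgebra

/-- **[C-INPUT] in the context of the [HARD] machine** (twin of `twt_cinput`). -/
theorem m59ct_cinput {p : ℕ} [Fact p.Prime] {k k' : Type} [Field k] [Field k']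
    [Algebra k k'] [CharP k' p] {N q : ℕ} [NeZero N] {S : Finset ℕ}
    {θ : heckeAlgebra N 2 (↑S : Set ℕ) →+* k} {ρbar : ResidualGaloisRep k} {Sram : Finset ℕ}
    (hC : m59m_Ctx p N q S θ ρbar Sram)
    (hq : ∀ g : k[X], g.Monic → g.natDegree = 2 →
      ∃ α β : k', g.map (algebraMap k k') = (X - C α) * (X - C β)) :
    ∃ rb : FramedResidual k',
      (ρbar.baseChange k').IsEquiv rb.toResidualGaloisRep ∧
      s56a_Hyp p rb.toResidualGaloisRep ∧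
      twt_Compat ((algebraMap k k').comp θ) rb.toResidualGaloisRep ∧
      (∀ q' : ℕ, q'.Prime → q' ≠ p →
        (q' ∈ insert p Sram ↔ ¬ rb.toResidualGaloisRep.IsUnramifiedAt q')) ∧
      (∀ ℓ ∈ m59m_Th p N Sram, (ℓ : ℕ) ∈ S) ∧
      (∀ ℓ ∈ m59m_Th p N Sram, (ℓ : ℕ) ∉ insert p Sram) ∧
      (∀ ℓ ∈ m59m_Th p N Sram, ∀ A : ValuationSubring twt_Qb, A.LiesOverPrime (ℓ : ℕ) →
        ∀ σ ∈ A.decompositionSubgroup ℚ, ∃ a : k', rb σ = Matrix.scalar (Fin 2) a) ∧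
      (∀ ℓ : ℕ, ℓ.Prime → ℓ ∣ N → ℓ ∉ insert p Sram → ℓ % p ≠ 1 →
        m59m_IsHarmless p rb.toResidualGaloisRep ℓ) := by
  have hN0 : N ≠ 0 := NeZero.ne N
  have hp : p.Prime := Fact.out
  have hp2 : p ≠ 2 := hC.p_ne_two
  obtain ⟨rb, hrb⟩ := exists_framedResidual (ρbar.baseChange k')
  obtain ⟨hyp', hunr', hchar'⟩ := s56am_hypEquiv p k' (ρbar.baseChange k') rb hrb
    (twt_ci_hyp ρbar hp2 hC.NS θ hC.compat hC.abs hC.tw hq)
  obtain ⟨e⟩ := hrb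
  have hTh : ∀ ℓ ∈ m59m_Th p N Sram, (ℓ : ℕ) ∣ N ∧ (ℓ : ℕ) ∉ Sram ∧ (ℓ : ℕ) % p = 1 :=
    fun ℓ hℓ => (m59m_mem_Th hN0 Sram ℓ).mp hℓ
  have hThp := m59m_Th_spec hp hN0 hC.pN Sram
  refine ⟨rb, ⟨e⟩, hyp', ?_, ?_, ?_, ?_, ?_, ?_⟩
  · -- compatibility
    intro ℓ hℓ hℓN hℓS A hA σ hσ
    rw [← hchar' σ]
    exact twt_ci_compat ρbar θ hC.compat ℓ hℓ hℓN hℓS A hA σ hσ
  · -- `Smin = insert p Sram`
    intro q' hq' hqp
    rw [← hunr' q', twt_ci_unram_iff, Finset.mem_insert, ← hC.ram q' hq' hqp]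
    constructor
    · rintro (h | h)
      · exact absurd h hqp
      · exact h
    · exact fun h => Or.inr h
  · intro ℓ hℓ
    exact hC.NS ℓ ℓ.2 (hTh ℓ hℓ).1
  · intro ℓ hℓ hmem
    rw [Finset.mem_insert] at hmem
    rcases hmem with h | h
    · exact (hThp ℓ hℓ).1 h
    · exact (hTh ℓ hℓ).2.1 h
  · intro ℓ hℓ A hA σ hσ
    haveI : Fact (ℓ : ℕ).Prime := ⟨ℓ.2⟩
    have hunrℓ : ρbar.IsUnramifiedAt (ℓ : ℕ) := by
      by_contra hcon
      exact (hTh ℓ hℓ).2.1 ((hC.ram ℓ ℓ.2 (hThp ℓ hℓ).1).mpr hcon)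
    obtain ⟨c, hc⟩ := twt_ci_decomp_scalar ρbar hp (hThp ℓ hℓ).2 hunrℓ
      (hC.hard ℓ ℓ.2 (hTh ℓ hℓ).1 (hTh ℓ hℓ).2.1 (hTh ℓ hℓ).2.2) A hA σ hσ
    refine ⟨algebraMap k k' c, ?_⟩
    have hbc : ∀ x : k' ⊗[k] ρbar.V,
        (ρbar.baseChange k').ρ σ x = algebraMap k k' c • x := by
      intro x
      change (ρbar.ρ σ).baseChange k' x = _
      rw [hc]
      induction x using TensorProduct.induction_on with
      | zero => simp
      | tmul a v =>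
        rw [LinearMap.baseChange_tmul, LinearMap.smul_apply, Module.End.one_apply,
          TensorProduct.tmul_smul, algebraMap_smul]
      | add x y hx hy => rw [map_add, hx, hy, smul_add]
    have key : ∀ y : Fin 2 → k', (rb σ).mulVec y = algebraMap k k' c • y := by
      intro y
      obtain ⟨x, hx⟩ := e.toLinearEquiv.surjective (y : rb.toResidualGaloisRep.V)
      have h3 := e.map_apply σ x
      rw [hbc x, map_smul, hx] at h3
      exact h3.symm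
    ext i j
    have h6 := congrFun (key (Pi.single j 1)) i
    simp only [Matrix.mulVec_single_one, Matrix.col_apply, Pi.smul_apply, smul_eq_mul] at h6
    rw [h6, Matrix.scalar_apply, Matrix.diagonal_apply]
    by_cases hij : i = j <;> simp [hij, Pi.single_apply]
  · intro ℓ hℓ hℓN hℓS hℓ1
    have hℓram : ℓ ∉ Sram := fun h => hℓS (Finset.mem_insert_of_mem h)
    exact m59ct_harmless_of_equiv ⟨e.symm⟩
      (m59ct_harmless_baseChange (k' := k') (hC.harmless ℓ hℓ hℓN hℓram hℓ1))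

/-- **block [C] for the [HARD] machine, flat mode**: `m59m_PatchLv_stmt` from block [E]. -/
theorem m59ct_patchLv (hE : m59m_M2LG_stmt) : m59m_PatchLv_stmt := by
  classical
  intro p hpF k _ _ _ N q _ S θ ρbar Sram hC 𝒪 _ _ _ _ _ _ _ hco
  obtain ⟨hp𝒪, ⟨ζ, hζ⟩, hquad⟩ := hco
  have hpp : p.Prime := Fact.out
  have hp2 : p ≠ 2 := hC.p_ne_two
  have hN0 : N ≠ 0 := NeZero.ne N
  have hNsq := hC.sq
  have hpN := hC.pN
  have hpS := hC.pS
  have hNS := hC.NS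
  haveI : CharP (ResidueField 𝒪) p := s56a_charP p hp𝒪
  obtain ⟨rb, -, hyp, hcompat', hmin, hThS, hThmin, hscal, hharm⟩ := m59ct_cinput hC hquad
  -- a uniformiser
  obtain ⟨lam, hlam⟩ : ∃ lam : 𝒪, maximalIdeal 𝒪 = Ideal.span {lam} := by
    obtain ⟨ϖ, hϖ⟩ := IsDiscreteValuationRing.exists_irreducible 𝒪
    exact ⟨ϖ, (IsDiscreteValuationRing.irreducible_iff_uniformizer ϖ).1 hϖ⟩
  -- the hard primes
  set Th : Finset Nat.Primes := m59m_Th p N Sram with hThdef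
  have hThp := m59m_Th_spec hpp hN0 hpN Sram
  have hTh : ∀ ℓ ∈ Th, ((ℓ : Nat.Primes) : ℕ) ∣ N ∧ ((ℓ : Nat.Primes) : ℕ) ∉ Sram ∧
      ((ℓ : Nat.Primes) : ℕ) % p = 1 := fun ℓ hℓ => (m59m_mem_Th hN0 Sram ℓ).mp hℓ
  have hscal' : ∀ ℓ ∈ Th, ∀ σ ∈ (primeLocalPlace ℓ).decompositionSubgroup ℚ,
      ∃ c : ResidueField 𝒪, rb σ = Matrix.scalar (Fin 2) c := fun ℓ hℓ σ hσ =>
    hscal ℓ hℓ (primeLocalPlace ℓ) (s56ld_liesOver ℓ) σ hσ
  have hThP : ∀ ℓ ∈ Th, ((ℓ : Nat.Primes) : ℕ) ∣ N ∧ ((ℓ : Nat.Primes) : ℕ) ∉ insert p Sram ∧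
      ((ℓ : Nat.Primes) : ℕ) % p = 1 ∧ twt_FrobScalar rb.toResidualGaloisRep ℓ := by
    intro ℓ hℓ
    refine ⟨(hTh ℓ hℓ).1, hThmin ℓ hℓ, (hTh ℓ hℓ).2.2, fun A hA σ hσ => ?_⟩
    obtain ⟨c, hc⟩ := hscal ℓ hℓ A hA σ hσ.mem_decompositionSubgroup
    refine ⟨c, ?_⟩
    apply LinearMap.ext
    intro v
    have h1 : rb.toResidualGaloisRep.ρ σ v = (rb σ).mulVec v :=
      FramedResidual.toResidualGaloisRep_ρ_apply rb σ v
    rw [h1, hc]
    funext i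
    show (Matrix.scalar (Fin 2) c).mulVec v i = c • (v : Fin 2 → ResidueField 𝒪) i
    simp [Matrix.mulVec, dotProduct, Matrix.scalar_apply, Matrix.diagonal_apply]
  have hThall : ∀ ℓ : Nat.Primes, (ℓ : ℕ) ∣ N → (ℓ : ℕ) ∉ insert p Sram →
      ℓ ∈ Th ∨ m59m_IsHarmless p rb.toResidualGaloisRep (ℓ : ℕ) := by
    intro ℓ hℓN hℓS
    by_cases h1 : (ℓ : ℕ) % p = 1
    · exact Or.inl ((m59m_mem_Th hN0 Sram ℓ).mpr
        ⟨hℓN, fun h => hℓS (Finset.mem_insert_of_mem h), h1⟩)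
    · exact Or.inr (hharm ℓ ℓ.2 hℓN hℓS h1)
  -- the tame data
  set td : twc_TameData p Th := twib_td p Th hThp with htd
  have hgen : twib_InertiaGen td := twib_td_inertiaGen p Th hThp
  -- the Frobenius scalars
  have ha : ∀ ℓ : Nat.Primes, ∃ a : 𝒪, ℓ ∈ Th →
      rb (td.gφ ℓ) = Matrix.scalar (Fin 2) (residue 𝒪 a) := by
    intro ℓ
    by_cases hℓ : ℓ ∈ Th
    · obtain ⟨c, hc⟩ := hscal' ℓ hℓ (td.gφ ℓ) (td.φ_mem ℓ hℓ)
      obtain ⟨a, rfl⟩ := residue_surjective c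
      exact ⟨a, fun _ => hc⟩
    · exact ⟨0, fun h => absurd h hℓ⟩
  choose a ha using ha
  have hφa : ∀ ℓ ∈ Th, rb (td.gφ ℓ) = Matrix.scalar (Fin 2) (residue 𝒪 (a ℓ)) :=
    fun ℓ hℓ => ha ℓ hℓ
  have han : ∀ ℓ ∈ Th, a ℓ ^ 2 - (((ℓ : Nat.Primes) : ℕ) : 𝒪) ∈ maximalIdeal 𝒪 := by
    intro ℓ hℓ
    rw [← residue_eq_zero_iff, map_sub, map_pow, map_natCast, sub_eq_zero]
    exact twc_pm_sq rb hyp.hdet ℓ.2 (hThp ℓ hℓ).1 (primeLocalPlace ℓ) (s56ld_liesOver ℓ)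
      (td.gφ ℓ) (td.φ_frob ℓ hℓ) _ (hφa ℓ hℓ)
  -- block [E]
  obtain ⟨B, hB⟩ := hE p hC.hp 𝒪 hp𝒪 N hNsq hpN hC.rigid S hpS hNS
    ((algebraMap k (ResidueField 𝒪)).comp θ) rb.toResidualGaloisRep hcompat' hyp.habs
  obtain ⟨r0, hr0e, hr0l⟩ := twc_hp_exists_framed B.H hNS rb hcompat'
  -- the Taylor-Wiles primes
  have hpSmin : p ∈ insert p Sram := Finset.mem_insert_self _ _
  have hSminN : ∀ q' ∈ insert p Sram, q'.Prime → q' ≠ p → q' ∣ N := by
    intro q' hq' _ hq'p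
    rcases Finset.mem_insert.1 hq' with h | h
    · exact absurd h hq'p
    · exact (hC.ramN q' h).2
  have hSmin : insert p Sram ⊆ S := by
    intro x hx
    rcases Finset.mem_insert.1 hx with rfl | h
    · exact hpS
    · exact hNS x (hC.ramN x h).1 (hC.ramN x h).2
  obtain ⟨r, hr, hqv⟩ := twc_finrank_le 𝒪 p hp2 hp𝒪 rb hyp S (insert p Sram) hpSmin hSmin hmin
    Th hThS hThmin hscal' td
  have hq₀ : (⟨q, hC.qp⟩ : Nat.Primes) ∈ Th :=
    (m59m_mem_Th hN0 Sram _).mpr ⟨hC.qN, hC.qram, hC.q1⟩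
  refine ⟨B.T, inferInstance, inferInstance, inferInstance, inferInstance, inferInstance,
    inferInstance, inferInstance, inferInstance, B.H, r0, lam, ↥Th, inferInstance,
    (fun ℓ => a ℓ), (fun ℓ => ((ℓ : Nat.Primes) : ℕ)), ⟨⟨q, hC.qp⟩, hq₀⟩,
    r - 3 * Th.card, r, B.d * 2 ^ r, twc_j B r, hr0e, hlam, ?_, ?_, ?_, ?_, ?_, ?_, ?_⟩
  · intro t
    exact (hTh t.1 t.2).2.2
  · intro t
    exact han t.1 t.2
  · exact hC.qp.ne_zero
  · exact hC.qp.ne_one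
  · rw [Fintype.card_coe]
    omega
  · exact Nat.mul_pos B.d_pos (pow_pos (by norm_num) r)
  · intro m
    obtain ⟨qv, inj, hqv1, hfrob, h4⟩ := hqv m
    exact m59ct_levelAsm p hp2 𝒪 hp𝒪 lam hlam ζ hζ N hNsq hpN S hpS hNS (insert p Sram) hpSmin
      hSminN ((algebraMap k (ResidueField 𝒪)).comp θ) rb hcompat' hyp hmin Th hThP hThall
      td hgen a hφa B hB r0 hr0e hr0l r hr m qv inj hqv1 hfrob h4 ⟨⟨q, hC.qp⟩, hq₀⟩

end

end Fermat.Agent.M59
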